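import Fermat.Agent.Patching.LimitModule
import Fermat.Agent.Deformation.PowerSeriesBasic

/-!
The power series ring `S = O⟦y₁, …, y_r⟧` as the base ring of patching.
-/

set_option autoImplicit false

noncomputable section

namespace FLTA.Patching

open IsLocalRing RingTheory.Sequence

section

variable {O : Type} [CommRing O] [IsLocalRing O] {r : ℕ}

/-- The relations `(1 + y_j) ^ (ℓ ^ n) = 1` of the diamond operators at level `n`. -/
def diamondIdeal (O : Type) [CommRing O] (ℓ r n : ℕ) : Ideal (MvPowerSeries (Fin r) O) :=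
  Ideal.span (Set.range fun j : Fin r =>
    ((1 + MvPowerSeries.X j) ^ (ℓ ^ n) - 1 : MvPowerSeries (Fin r) O))

/-- `(1 + y) ^ (ℓ ^ n) - 1 ∈ 𝔪 ^ (n + 1)` for `ℓ ∈ 𝔪`, `y ∈ 𝔪`. -/
lemma one_add_pow_prime_pow_sub_one_mem {R : Type} [CommRing R] {I : Ideal R} {ℓ : ℕ}
    (hℓ : (ℓ : R) ∈ I) {y : R} (hy : y ∈ I) :
    ∀ n, (1 + y) ^ (ℓ ^ n) - 1 ∈ I ^ (n + 1) := by
  intro n
  induction n with
  | zero => simpa using hy
  | succ n ih =>
    set a := (1 + y) ^ (ℓ ^ n)
    have ha : a ^ ℓ - 1 = (∑ i ∈ Finset.range ℓ, a ^ i) * (a - 1) := (geom_sum_mul a ℓ).symm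
    have hI : a - 1 ∈ I := Ideal.pow_le_self (Nat.succ_ne_zero n) ih
    have hsum : ∑ i ∈ Finset.range ℓ, a ^ i ∈ I := by
      have h1 : ∑ i ∈ Finset.range ℓ, (a ^ i - 1) ∈ I := Submodule.sum_mem _ fun i _ => by
        rw [← geom_sum_mul a i]
        exact I.mul_mem_left _ hI
      rw [Finset.sum_sub_distrib] at h1
      simpa using add_mem h1 hℓ
    rw [pow_succ' I (n + 1), pow_succ ℓ n, pow_mul, ha]
    exact Ideal.mul_mem_mul hsum ih

lemma diamondIdeal_le {ℓ : ℕ} (hℓ : (ℓ : O) ∈ maximalIdeal O) (n : ℕ) :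
    diamondIdeal O ℓ r n ≤ maximalIdeal (MvPowerSeries (Fin r) O) ^ n := by
  have hmem : ∀ f : MvPowerSeries (Fin r) O, MvPowerSeries.constantCoeff f ∈ maximalIdeal O →
      f ∈ maximalIdeal (MvPowerSeries (Fin r) O) := fun f hf => by
    simpa [MvPowerSeries.isUnit_iff_constantCoeff] using hf
  rw [diamondIdeal, Ideal.span_le]
  rintro - ⟨j, rfl⟩
  refine Ideal.pow_le_pow_right (Nat.le_succ n)
    (one_add_pow_prime_pow_sub_one_mem (hmem _ ?_) (hmem _ ?_) n)
  · simpa using hℓ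
  · simp

end

variable {O : Type} [CommRing O] [IsDomain O] [IsDiscreteValuationRing O] {r : ℕ}

/-- `ϖ, y₁, …, y_r` is weakly regular on `O⟦y⟧`. -/
lemma isWeaklyRegular_uniformizer_cons {ϖ : O} (hϖ : ϖ ≠ 0) (hϖm : ϖ ∈ maximalIdeal O) :
    IsWeaklyRegular (MvPowerSeries (Fin r) O)
      (MvPowerSeries.C ϖ :: List.ofFn (MvPowerSeries.X : Fin r → MvPowerSeries (Fin r) O)) := by
  have hlist : List.ofFn (psSeq (r := r) ϖ) =
      List.ofFn (MvPowerSeries.X : Fin r → MvPowerSeries (Fin r) O) ++ [MvPowerSeries.C ϖ] := by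
    rw [List.ofFn_succ', List.concat_eq_append]
    simp [psSeq]
  refine IsLocalRing.isWeaklyRegular_of_perm_of_subset_maximalIdeal
    (psSeq_list_isWeaklyRegular (r := r) ϖ hϖ) ?_ ?_
  · rw [hlist]
    exact List.perm_append_singleton _ _
  · intro f hf
    rw [hlist, List.mem_append, List.mem_ofFn', List.mem_singleton] at hf
    rcases hf with ⟨i, rfl⟩ | rfl <;> simp [MvPowerSeries.isUnit_iff_constantCoeff]
    simpa using hϖm

end FLTA.Patching
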