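import Fermat.Prelude.Def_CuspForm_HeckeGaloisRepDatum
import Fermat.Prelude.Def_GaloisRep_DeformationRingData
import Fermat.Agent.Galois.Places
import Fermat.Agent.RepTheory.Basic

/-!
`R ↠ T`: the universal deformation ring surjects onto the coefficient ring of a Hecke–Galois datum.
-/

set_option autoImplicit false

namespace FLTA.Patching

open GaloisRep

/-- A Frobenius element exists at every prime. -/
theorem exists_frobenius {ℓ : ℕ} (hℓ : ℓ.Prime) :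
    ∃ (A : ValuationSubring (AlgebraicClosure ℚ)) (σ : AlgebraicClosure ℚ ≃ₐ[ℚ] AlgebraicClosure ℚ),
      A.LiesOverPrime ℓ ∧ A.IsFrobeniusAt σ ℓ := by
  obtain ⟨A, hA⟩ := FLTA.Galois.exists_liesOverPrime hℓ
  obtain ⟨σ, hσ⟩ := FLTA.Galois.exists_isFrobeniusAt hℓ hA
  exact ⟨A, σ, hA, hσ⟩

variable {𝒪 : Type} [CommRing 𝒪] [IsDomain 𝒪] [IsDiscreteValuationRing 𝒪]
  [IsAdicComplete (IsLocalRing.maximalIdeal 𝒪) 𝒪]
  {N : ℕ} [NeZero N] {S : Set ℕ}
  {θ : CuspForm.heckeAlgebra N 2 S →+* IsLocalRing.ResidueField 𝒪}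
  {T : Type} [CommRing T] [IsLocalRing T] [IsNoetherianRing T]
  [IsAdicComplete (IsLocalRing.maximalIdeal T) T] [Algebra 𝒪 T] [IsLocalHom (algebraMap 𝒪 T)]
  [Module.Finite 𝒪 T] [Module.Free 𝒪 T]

/-- An algebra map from any `𝒪`-algebra whose representation pushes forward to that of the datum
is surjective. -/
theorem surjective_of_baseChangeAlong_isEquiv (H : CuspForm.HeckeGaloisRepDatum N S 𝒪 θ T)
    (hS : ∀ q : ℕ, q.Prime → q ∣ N → q ∈ S) {R : Type} [CommRing R] [IsLocalRing R] [Algebra 𝒪 R]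
    (ρR : GaloisRepAdic R) (φ : R →ₐ[𝒪] T) (hφ : IsLocalHom (φ : R →+* T))
    (he : (ρR.baseChangeAlong (φ : R →+* T) hφ).IsEquiv H.ρ) : Function.Surjective φ := by
  have hT : ∀ {ℓ : ℕ} (hℓ : ℓ.Prime) (hℓN : ¬ ℓ ∣ N) (hℓS : ℓ ∉ S),
      H.π (CuspForm.heckeAlgebra.T hℓ hℓN hℓS) ∈ φ.range := by
    intro ℓ hℓ hℓN hℓS
    obtain ⟨A, σ, hA, hσ⟩ := exists_frobenius hℓ
    refine ⟨ρR.trace σ, ?_⟩
    have h1 := (FLTA.RepTheory.trace_eq_of_charpoly H.ρ.finrank_eq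
      (H.charpoly_frob ℓ hℓ hℓN hℓS A hA σ hσ)).1
    have h2 := FLTA.RepTheory.trace_eq_of_isEquiv he σ
    rw [FLTA.RepTheory.trace_baseChangeAlong] at h2
    exact h2.trans h1
  have hrange : Set.range H.π ⊆ φ.range := by
    rintro - ⟨⟨t, ht⟩, rfl⟩
    induction ht using Algebra.adjoin_induction with
    | mem x hx =>
      rcases hx with ⟨ℓ, hℓ, hℓN, hℓS, rfl⟩ | ⟨q, hqN, hq, hqS, rfl⟩
      · exact hT hℓ hℓN hℓS
      · exact absurd (hS q hq hqN) hqS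
    | algebraMap n =>
      show H.π (algebraMap ℤ (CuspForm.heckeAlgebra N 2 S) n) ∈ φ.range
      have : H.π (algebraMap ℤ (CuspForm.heckeAlgebra N 2 S) n) = (n : T) := by simp
      rw [this]
      exact intCast_mem φ.range n
    | add x y hx hy ihx ihy =>
      show H.π (⟨x, hx⟩ + ⟨y, hy⟩) ∈ φ.range
      rw [map_add]
      exact add_mem ihx ihy
    | mul x y hx hy ihx ihy =>
      show H.π (⟨x, hx⟩ * ⟨y, hy⟩) ∈ φ.range
      rw [map_mul]
      exact mul_mem ihx ihy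
  rw [← AlgHom.range_eq_top, eq_top_iff, ← H.adjoin_range_π]
  exact Algebra.adjoin_le hrange

end FLTA.Patching
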