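import Fermat.Agent.Patching.Depth
import Mathlib.RingTheory.MvPowerSeries.Inverse
import Mathlib.RingTheory.MvPowerSeries.NoZeroDivisors
import Mathlib.RingTheory.MvPowerSeries.Equiv
import Mathlib.RingTheory.DiscreteValuationRing.Basic

/-!
The sequence `X₀, …, X_{r-1}, ϖ` in `O⟦X₀, …, X_{r-1}⟧`: it generates the maximal ideal and is
regular on finite free modules.
-/

set_option autoImplicit false

namespace FLTA.Patching

open MvPowerSeries RingTheory.Sequence

variable {O : Type} [CommRing O] {r : ℕ}

lemma mem_span_X_iff (s : Finset (Fin r)) (f : MvPowerSeries (Fin r) O) :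
    f ∈ Ideal.span (X '' (s : Set (Fin r))) ↔
      ∀ m : Fin r →₀ ℕ, (∀ i ∈ s, m i = 0) → coeff m f = 0 := by
  classical
  induction s using Finset.induction generalizing f with
  | empty =>
    simp only [Finset.coe_empty, Set.image_empty, Ideal.span_empty, Ideal.mem_bot,
      Finset.notMem_empty, false_imp_iff, implies_true, forall_true_left]
    exact ⟨fun h m => by simp [h], fun h => MvPowerSeries.ext fun m => by simpa using h m⟩
  | @insert a s has ih =>
    rw [Finset.coe_insert, Set.image_insert_eq, Ideal.span_insert, Submodule.mem_sup]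
    constructor
    · rintro ⟨u, hu, v, hv, rfl⟩ m hm
      obtain ⟨q, rfl⟩ := Ideal.mem_span_singleton.mp hu
      rw [map_add, (ih v).mp hv m (fun i hi => hm i (Finset.mem_insert_of_mem hi)), add_zero]
      exact X_dvd_iff.mp (dvd_mul_right _ q) m (hm a (Finset.mem_insert_self a s))
    · intro hf
      let g : MvPowerSeries (Fin r) O := fun m => if m a = 0 then coeff m f else 0
      have hg : ∀ m, coeff m g = if m a = 0 then coeff m f else 0 := fun m => rfl
      refine ⟨f - g, ?_, g, (ih g).mpr fun m hm => ?_, sub_add_cancel f g⟩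
      · rw [Ideal.mem_span_singleton, X_dvd_iff]
        intro m hm
        simp [hg, hm]
      · rw [hg]
        split_ifs with ha
        · exact hf m fun i hi => by
            rcases Finset.mem_insert.mp hi with rfl | hi
            exacts [ha, hm i hi]
        · rfl

variable [IsDomain O]

lemma X_mul_mem_span_X {s : Finset (Fin r)} {i : Fin r} (hi : i ∉ s)
    {f : MvPowerSeries (Fin r) O} (h : X i * f ∈ Ideal.span (X '' (s : Set (Fin r)))) :
    f ∈ Ideal.span (X '' (s : Set (Fin r))) := by
  classical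
  rw [mem_span_X_iff] at h ⊢
  intro m hm
  have := h (Finsupp.single i 1 + m) fun j hj => by
    have : i ≠ j := fun e => hi (e ▸ hj)
    simp [hm j hj, Finsupp.single_eq_of_ne this.symm]
  rwa [X, coeff_add_monomial_mul, one_mul] at this

lemma mem_span_range_X_iff (f : MvPowerSeries (Fin r) O) :
    f ∈ Ideal.span (Set.range (X : Fin r → MvPowerSeries (Fin r) O)) ↔
      constantCoeff f = 0 := by
  classical
  rw [← Set.image_univ, ← Finset.coe_univ, mem_span_X_iff, ← coeff_zero_eq_constantCoeff_apply]
  exact ⟨fun h => h 0 (by simp), fun h m hm => by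
    rw [show m = 0 from Finsupp.ext fun i => hm i (Finset.mem_univ i)]; exact h⟩

section Seq

variable (ϖ : O)

/-- `X₀, …, X_{r-1}, ϖ`. -/
noncomputable def psSeq : Fin (r + 1) → MvPowerSeries (Fin r) O := Fin.snoc X (C ϖ)

lemma psSeq_list_isWeaklyRegular (hϖ : ϖ ≠ 0) :
    IsWeaklyRegular (MvPowerSeries (Fin r) O) (List.ofFn (psSeq (r := r) ϖ)) := by
  classical
  refine (isWeaklyRegular_iff _ _).mpr fun i hi => ?_
  rw [List.getElem_ofFn]
  simp only [List.length_ofFn] at hi
  have htake : Ideal.ofList ((List.ofFn (psSeq (r := r) ϖ)).take i) =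
      Ideal.span (X '' ((Finset.univ.filter fun j : Fin r => (j : ℕ) < i) : Set (Fin r))) := by
    refine le_antisymm (Ideal.span_le.mpr fun x hx => ?_) (Ideal.span_le.mpr ?_)
    · obtain ⟨j, hj, rfl⟩ := List.mem_take_iff_getElem.mp hx
      simp only [List.length_ofFn, lt_min_iff] at hj
      refine Ideal.subset_span ⟨⟨j, by omega⟩, by simp [hj.1], ?_⟩
      rw [List.getElem_ofFn]
      simp [psSeq, Fin.snoc, show j < r by omega, Fin.castLT]
    · rintro - ⟨j, hj, rfl⟩
      simp only [Finset.coe_filter, Finset.mem_univ, true_and, Set.mem_setOf_eq] at hj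
      refine Ideal.subset_span (List.mem_take_iff_getElem.mpr ⟨j, by simp; omega, ?_⟩)
      rw [List.getElem_ofFn]
      simp [psSeq, Fin.snoc, Fin.castLT]
  rw [isSMulRegular_quotient_iff_mem_of_smul_mem]
  intro f hf
  rw [smul_eq_mul, Ideal.mul_top, htake] at hf ⊢
  by_cases hir : i < r
  · have : psSeq (r := r) ϖ ⟨i, hi⟩ = X ⟨i, hir⟩ := by simp [psSeq, Fin.snoc, hir, Fin.castLT]
    rw [this] at hf
    exact X_mul_mem_span_X (by simp) hf
  · have : psSeq (r := r) ϖ ⟨i, hi⟩ = C ϖ := by simp [psSeq, Fin.snoc, hir]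
    rw [this] at hf
    have hs : ((Finset.univ.filter fun j : Fin r => (j : ℕ) < i) : Set (Fin r)) = Set.univ := by
      ext j; simp; omega
    rw [hs, Set.image_univ, mem_span_range_X_iff] at hf ⊢
    rw [smul_eq_mul, map_mul, constantCoeff_C, mul_eq_zero] at hf
    exact hf.resolve_left hϖ

variable [IsLocalRing O] {ϖ}

lemma maximalIdeal_eq_span_psSeq (hϖ : IsLocalRing.maximalIdeal O = Ideal.span {ϖ}) :
    IsLocalRing.maximalIdeal (MvPowerSeries (Fin r) O) =
      Ideal.span (Set.range (psSeq (r := r) ϖ)) := by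
  classical
  have hmem : ∀ f : MvPowerSeries (Fin r) O,
      f ∈ IsLocalRing.maximalIdeal _ ↔ constantCoeff f ∈ IsLocalRing.maximalIdeal O := fun f => by
    simp [isUnit_iff_constantCoeff]
  refine le_antisymm (fun f hf => ?_) (Ideal.span_le.mpr ?_)
  · obtain ⟨a, ha⟩ := Ideal.mem_span_singleton'.mp (hϖ ▸ (hmem f).mp hf)
    rw [show f = (f - C (constantCoeff f)) + C a * C ϖ by rw [← map_mul, ha]; ring]
    refine add_mem ?_ (Ideal.mul_mem_left _ _ (Ideal.subset_span ⟨Fin.last r, by simp [psSeq]⟩))
    have : f - C (constantCoeff f) ∈ Ideal.span (Set.range (X : Fin r → MvPowerSeries (Fin r) O)) :=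
      (mem_span_range_X_iff _).mpr (by simp)
    refine Ideal.span_mono ?_ this
    rintro - ⟨j, rfl⟩
    exact ⟨j.castSucc, by simp [psSeq]⟩
  · rintro - ⟨j, rfl⟩
    rw [SetLike.mem_coe, hmem, hϖ]
    refine Fin.lastCases ?_ (fun j => ?_) j <;> simp [psSeq, Ideal.mem_span_singleton_self]

end Seq

/-- Finite free modules inherit weak regularity (product version). -/
lemma isWeaklyRegular_pi {A : Type} [CommRing A] {ι : Type} [Finite ι] (rs : List A)
    (h : IsWeaklyRegular A rs) : IsWeaklyRegular (ι → A) rs := by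
  have := h.isWeaklyRegular_rTensor (M₂ := (ι → A))
  exact ((TensorProduct.lid A (ι → A)).isWeaklyRegular_congr rs).mp this

end FLTA.Patching
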