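import Fermat.Agent.Patching.Depth
import Mathlib.Tactic.LinearCombination
import Mathlib.LinearAlgebra.Matrix.Charpoly.LinearMap

/-!
Ihara avoidance without local deformation rings: pure depth arguments.

The module `M` stands for a patched module on the character side at an auxiliary prime `q`;
`x, y, z, a, b, c` are the coordinates of the trace-free parts of inertia and Frobenius at `q`.
The theorems say that the discriminant `D` of Frobenius cannot kill `M / ϖ M`.
-/

set_option autoImplicit false

namespace FLTA.Patching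

open IsLocalRing RingTheory.Sequence
open scoped Pointwise

variable {A : Type} [CommRing A] [IsLocalRing A]

omit [IsLocalRing A] in
lemma annihilator_le_quotSMulTop {M : Type} [AddCommGroup M] [Module A M] (z : A) :
    Module.annihilator A M ≤ Module.annihilator A (QuotSMulTop z M) :=
  LinearMap.annihilator_le_of_surjective (Submodule.mkQ _) (Submodule.mkQ_surjective _)

lemma exists_isUnit_coeff {l : ℕ} {e : Fin l → A} {z : A} {c : Fin l → A}
    (hc : ∑ i, c i * e i = z) {J : Ideal A}
    (hJ : maximalIdeal A • Ideal.span (Set.range e) ≤ J) (hz : z ∉ J) :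
    ∃ i, IsUnit (c i) ∧ e i ∉ J := by
  by_contra hcon
  push Not at hcon
  refine hz ?_
  rw [← hc]
  refine Submodule.sum_mem _ fun i _ => ?_
  by_cases hi : IsUnit (c i)
  · exact J.mul_mem_left _ (hcon i hi)
  · exact hJ (Submodule.smul_mem_smul hi (Ideal.subset_span ⟨i, rfl⟩))

omit [IsLocalRing A] in
lemma span_range_eq_sup_succAbove {l : ℕ} {e : Fin (l + 1) → A} {c : Fin (l + 1) → A} {z : A}
    (hc : ∑ i, c i * e i = z) {i : Fin (l + 1)} (hi : IsUnit (c i)) :
    Ideal.span (Set.range e) ≤
      Ideal.span {z} ⊔ Ideal.span (Set.range fun j => e (i.succAbove j)) := by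
  rw [Ideal.span_le]
  rintro - ⟨k, rfl⟩
  rcases Fin.eq_self_or_eq_succAbove i k with rfl | ⟨j, rfl⟩
  · obtain ⟨u, hu⟩ := hi
    have hk : e k = (↑u⁻¹ : A) * (z - ∑ j, c (k.succAbove j) * e (k.succAbove j)) := by
      rw [← hc, Fin.sum_univ_succAbove _ k, add_sub_cancel_right, ← mul_assoc, ← hu,
        Units.inv_mul, one_mul]
    rw [SetLike.mem_coe, hk]
    refine Ideal.mul_mem_left _ _ (sub_mem (Ideal.mem_sup_left (Ideal.mem_span_singleton_self z))
      (Ideal.mem_sup_right (Submodule.sum_mem _ fun j _ => Ideal.mul_mem_left _ _ ?_)))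
    exact Ideal.subset_span ⟨j, rfl⟩
  · exact Ideal.mem_sup_right (Ideal.subset_span ⟨j, rfl⟩)

section

variable [IsNoetherianRing A] {M : Type} [AddCommGroup M] [Module A M] [Module.Finite A M]

omit [Module.Finite A M] in
lemma not_le_of_isAssociatedPrime_of_regular {x : A} (hx : x ∈ maximalIdeal A)
    (h : IsSMulRegular M x) {I : Ideal A}
    (hrad : maximalIdeal A ≤ (Module.annihilator A M ⊔ I).radical) {P : Ideal A}
    (hP : P ∈ associatedPrimes A M) : ¬ I ≤ P := by
  intro hle
  have hprime := IsAssociatedPrime.isPrime hP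
  have hann : Module.annihilator A M ≤ P := by
    simpa [Submodule.annihilator_top] using IsAssociatedPrime.annihilator_le hP
  have hm : maximalIdeal A ≤ P :=
    hrad.trans (hprime.radical_le_iff.mpr (sup_le hann hle))
  have hzd : x ∈ ⋃ p ∈ associatedPrimes A M, (p : Set A) := Set.mem_biUnion hP (hm hx)
  rw [biUnion_associatedPrimes_eq_zero_divisors] at hzd
  obtain ⟨v, hv, hv0⟩ := hzd
  exact hv (h.right_eq_zero_of_smul hv0)

lemma exists_regular_mem_of_radical {x : A} (hx : x ∈ maximalIdeal A)
    (h : IsSMulRegular M x) {I J : Ideal A}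
    (hrad : maximalIdeal A ≤ (Module.annihilator A M ⊔ I).radical) (hJ : ¬ I ≤ J) :
    ∃ z, z ∈ I ∧ z ∉ J ∧ IsSMulRegular M z := by
  classical
  by_contra hcon
  push Not at hcon
  have hfin := associatedPrimes.finite A M
  let f : Option (Ideal A) → Ideal A := fun o => o.getD J
  let s : Finset (Option (Ideal A)) := insert none (hfin.toFinset.image some)
  have hsub : ((I : Ideal A) : Set A) ⊆ ⋃ i ∈ (↑s : Set (Option (Ideal A))), f i := by
    intro z hz
    by_cases hzJ : z ∈ J
    · exact Set.mem_biUnion (x := none) (by simp [s]) hzJ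
    · have hnr := hcon z hz hzJ
      have hmem : z ∈ ⋃ p ∈ associatedPrimes A M, (p : Set A) := by
        rw [biUnion_associatedPrimes_eq_zero_divisors]
        by_contra hc
        exact hnr (isSMulRegular_iff_right_eq_zero_of_smul.mpr fun v hv => by
          by_contra hv0
          exact hc ⟨v, hv0, hv⟩)
      obtain ⟨p, hp, hzp⟩ := Set.mem_iUnion₂.mp hmem
      exact Set.mem_biUnion (x := some p) (by simp [s, hp]) hzp
  have hprimes : ∀ i ∈ s, i ≠ none → i ≠ none → (f i).IsPrime := by
    intro i hi hne _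
    rcases Finset.mem_insert.mp hi with rfl | hi
    · exact absurd rfl hne
    · obtain ⟨p, hp, rfl⟩ := Finset.mem_image.mp hi
      exact (hfin.mem_toFinset.mp hp).isPrime
  obtain ⟨i, hi, hle⟩ := (Ideal.subset_union_prime none none hprimes).mp hsub
  rcases Finset.mem_insert.mp hi with rfl | hi
  · exact hJ hle
  · obtain ⟨p, hp, rfl⟩ := Finset.mem_image.mp hi
    exact not_le_of_isAssociatedPrime_of_regular hx h hrad (hfin.mem_toFinset.mp hp) hle

omit [IsNoetherianRing A] [Module.Finite A M] in
lemma radical_le_quotSMulTop {I : Ideal A} {z : A} {I' : Ideal A}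
    (hrad : maximalIdeal A ≤ (Module.annihilator A M ⊔ I).radical)
    (hI : I ≤ Ideal.span {z} ⊔ I') :
    maximalIdeal A ≤ (Module.annihilator A (QuotSMulTop z M) ⊔ I').radical := by
  refine hrad.trans (Ideal.radical_mono (sup_le (le_sup_of_le_left (annihilator_le_quotSMulTop z))
    (hI.trans (sup_le (le_sup_of_le_left ?_) le_sup_right))))
  exact (Ideal.span_singleton_le_iff_mem _).mpr (QuotSMulTop.mem_annihilator M z)

end

/-- The length of a weakly regular sequence is at most the number of elements cutting the module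
down to finite length. -/
theorem length_le_of_radical [IsNoetherianRing A] :
    ∀ (l : ℕ) (M : Type) [AddCommGroup M] [Module A M] [Module.Finite A M] [Nontrivial M]
      (rs : List A), (∀ r ∈ rs, r ∈ maximalIdeal A) → IsWeaklyRegular M rs →
      ∀ e : Fin l → A, (∀ i, e i ∈ maximalIdeal A) →
        maximalIdeal A ≤ (Module.annihilator A M ⊔ Ideal.span (Set.range e)).radical →
        rs.length ≤ l := by
  intro l
  induction l with
  | zero =>
    intro M _ _ _ _ rs hmem hreg e _ hrad
    match rs with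
    | [] => simp
    | x :: rest =>
      obtain ⟨P, hP⟩ := associatedPrimes.nonempty A M
      exact absurd (by simp) (not_le_of_isAssociatedPrime_of_regular (hmem x (by simp))
        ((isWeaklyRegular_cons_iff M x rest).mp hreg).1 hrad hP)
  | succ l ih =>
    intro M _ _ _ _ rs hmem hreg e he hrad
    match rs with
    | [] => simp
    | x :: rest =>
      have hxm := hmem x (by simp)
      have hx := ((isWeaklyRegular_cons_iff M x rest).mp hreg).1
      have hI : ¬ Ideal.span (Set.range e) ≤ maximalIdeal A • Ideal.span (Set.range e) := by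
        intro hle
        have h0 := Submodule.eq_bot_of_le_smul_of_le_jacobson_bot _ _
          (IsNoetherian.noetherian _) hle (maximalIdeal_le_jacobson _)
        obtain ⟨P, hP⟩ := associatedPrimes.nonempty A M
        exact not_le_of_isAssociatedPrime_of_regular hxm hx hrad hP (h0 ▸ bot_le)
      obtain ⟨z, hzI, hzJ, hz⟩ := exists_regular_mem_of_radical hxm hx hrad hI
      have hzm : z ∈ maximalIdeal A :=
        (Ideal.span_le.mpr (by rintro - ⟨i, rfl⟩; exact he i)) hzI
      obtain ⟨c, hc⟩ := Ideal.mem_span_range_iff_exists_fun.mp hzI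
      obtain ⟨i, hi, -⟩ := exists_isUnit_coeff hc le_rfl hzJ
      obtain ⟨ws, hwl, hwm, hw⟩ := exists_isWeaklyRegular_cons rest.length M (x :: rest) rfl hmem
        hreg z hzm hz
      have := nontrivial_quotSMulTop_of_mem_maximalIdeal M hzm
      have := ih (QuotSMulTop z M) ws hwm ((isWeaklyRegular_cons_iff M z ws).mp hw).2
        (fun j => e (i.succAbove j)) (fun j => he _)
        (radical_le_quotSMulTop hrad (span_range_eq_sup_succAbove hc hi))
      simp only [List.length_cons]
      omega

/-- In the equality case every one of the elements is regular. -/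
theorem isSMulRegular_of_radical [IsNoetherianRing A] :
    ∀ (l : ℕ) (M : Type) [AddCommGroup M] [Module A M] [Module.Finite A M]
      (rs : List A), (∀ r ∈ rs, r ∈ maximalIdeal A) → IsWeaklyRegular M rs →
      rs.length = l + 1 → ∀ e : Fin (l + 1) → A, (∀ i, e i ∈ maximalIdeal A) →
        maximalIdeal A ≤ (Module.annihilator A M ⊔ Ideal.span (Set.range e)).radical →
        IsSMulRegular M (e 0) := by
  intro l
  induction l with
  | zero =>
    intro M _ _ _ rs hmem hreg hlen e he hrad
    rcases subsingleton_or_nontrivial M with hM | hM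
    · exact fun a b _ => Subsingleton.elim a b
    match rs, hlen with
    | x :: rest, _ =>
      have hxm := hmem x (by simp)
      have hx := ((isWeaklyRegular_cons_iff M x rest).mp hreg).1
      have hI : ¬ Ideal.span (Set.range e) ≤ maximalIdeal A • Ideal.span (Set.range e) := by
        intro hle
        have h0 := Submodule.eq_bot_of_le_smul_of_le_jacobson_bot _ _
          (IsNoetherian.noetherian _) hle (maximalIdeal_le_jacobson _)
        obtain ⟨P, hP⟩ := associatedPrimes.nonempty A M
        exact not_le_of_isAssociatedPrime_of_regular hxm hx hrad hP (h0 ▸ bot_le)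
      obtain ⟨z, hzI, -, hz⟩ := exists_regular_mem_of_radical hxm hx hrad hI
      obtain ⟨c, hc⟩ := Ideal.mem_span_range_iff_exists_fun.mp hzI
      refine isSMulRegular_iff_right_eq_zero_of_smul.mpr fun v hv => ?_
      refine hz.right_eq_zero_of_smul ?_
      rw [← hc, Fin.sum_univ_one, mul_smul, hv, smul_zero]
  | succ l ih =>
    intro M _ _ _ rs hmem hreg hlen e he hrad
    rcases subsingleton_or_nontrivial M with hM | hM
    · exact fun a b _ => Subsingleton.elim a b
    match rs, hlen with
    | x :: rest, hlen =>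
      simp only [List.length_cons, Nat.add_right_cancel_iff] at hlen
      have hxm := hmem x (by simp)
      have hx := ((isWeaklyRegular_cons_iff M x rest).mp hreg).1
      set I := Ideal.span (Set.range e) with hIdef
      have hI : ¬ I ≤ Ideal.span {e 0} ⊔ maximalIdeal A • I := by
        intro hle
        have h1 : I ≤ Ideal.span {e 0} := Submodule.le_of_le_smul_of_le_jacobson_bot
          (IsNoetherian.noetherian _) (maximalIdeal_le_jacobson _) hle
        have := length_le_of_radical 1 M (x :: rest) hmem hreg (fun _ => e 0) (fun _ => he 0)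
          (hrad.trans (Ideal.radical_mono (sup_le_sup_left (h1.trans (by
            rw [Set.range_const])) _)))
        simp only [List.length_cons] at this
        omega
      obtain ⟨z, hzI, hzJ, hz⟩ := exists_regular_mem_of_radical hxm hx hrad hI
      have hzm : z ∈ maximalIdeal A :=
        (Ideal.span_le.mpr (by rintro - ⟨i, rfl⟩; exact he i)) hzI
      obtain ⟨c, hc⟩ := Ideal.mem_span_range_iff_exists_fun.mp hzI
      obtain ⟨i, hi, hiJ⟩ := exists_isUnit_coeff hc le_sup_right hzJ
      have hi0 : i ≠ 0 := by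
        rintro rfl
        exact hiJ (Ideal.mem_sup_left (Ideal.mem_span_singleton_self (e 0)))
      obtain ⟨ws, hwl, hwm, hw⟩ := exists_isWeaklyRegular_cons rest.length M (x :: rest) rfl hmem
        hreg z hzm hz
      have h0 := ih (QuotSMulTop z M) ws hwm ((isWeaklyRegular_cons_iff M z ws).mp hw).2
        (by omega) (fun j => e (i.succAbove j)) (fun j => he _)
        (radical_le_quotSMulTop hrad (span_range_eq_sup_succAbove hc hi))
      rw [Fin.succAbove_ne_zero_zero hi0] at h0
      have hp : IsWeaklyRegular M [e 0, z] := by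
        refine IsLocalRing.isWeaklyRegular_of_perm_of_subset_maximalIdeal
          ((isWeaklyRegular_cons_iff M z [e 0]).mpr
            ⟨hz, (isWeaklyRegular_singleton_iff _ _).mpr h0⟩) (List.Perm.swap (e 0) z []) ?_
        exact List.forall_mem_cons.mpr ⟨hzm, List.forall_mem_cons.mpr ⟨he 0, by simp⟩⟩
      exact ((isWeaklyRegular_cons_iff M (e 0) [z]).mp hp).1

section Main

variable [IsNoetherianRing A] {M : Type} [AddCommGroup M] [Module A M] [Module.Finite A M]

omit [IsLocalRing A] [IsNoetherianRing A] in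
/-- A prime containing `Ann M ⊔ Q` contains the annihilator of `M / Q M`. -/
lemma mem_of_annihilator_quotient_mem (M : Type) [AddCommGroup M] [Module A M] [Module.Finite A M]
    (Q : Ideal A) {p : Ideal A} (hp : Module.annihilator A M ⊔ Q ≤ p) (hpp : p.IsPrime) {w : A}
    (hw : w ∈ Module.annihilator A (M ⧸ (Q • (⊤ : Submodule A M)))) : w ∈ p := by
  -- Cayley–Hamilton: `w M ≤ Q M` gives `w ^ d + (element of Q) ∈ Ann M`
  have hle : LinearMap.range (algebraMap A (Module.End A M) w) ≤ Q • (⊤ : Submodule A M) := by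
    rintro - ⟨m, rfl⟩
    have := Module.mem_annihilator.mp hw (Submodule.Quotient.mk m)
    rw [← Submodule.Quotient.mk_smul] at this
    exact (Submodule.Quotient.mk_eq_zero _).mp this
  obtain ⟨f, hmonic, hdeg, hcoeff, hf⟩ :=
    LinearMap.exists_monic_and_natDegree_eq_and_coeff_mem_pow_and_aeval_eq_zero A _ Q hle
  rw [Polynomial.aeval_algebraMap_apply_eq_algebraMap_eval] at hf
  have hfM : f.eval w ∈ Module.annihilator A M := Module.mem_annihilator.mpr fun m => by
    have := LinearMap.congr_fun hf m
    simpa using this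
  have hfp := hp (Ideal.mem_sup_left hfM)
  rw [Polynomial.eval_eq_sum_range, Finset.sum_range_succ, hmonic.coeff_natDegree, one_mul] at hfp
  refine hpp.mem_of_pow_mem f.natDegree ((p.add_mem_iff_right ?_).mp hfp)
  refine Submodule.sum_mem _ fun i hi => p.mul_mem_right _ (hp (Ideal.mem_sup_right ?_))
  have hlt : i < f.natDegree := Finset.mem_range.mp hi
  exact Ideal.pow_le_self (by omega) (hcoeff i)

omit [IsLocalRing A] [IsNoetherianRing A] [Module.Finite A M] in
/-- If `v` is regular modulo `ϖ` and `v² d = ϖ ^ e • w`, then `d = ϖ ^ e • g` with `v² g = w`. -/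
lemma exists_smul_eq_of_regular_mod {ϖ v : A} (hϖ : IsSMulRegular M ϖ)
    (hv : IsSMulRegular (QuotSMulTop ϖ M) v) :
    ∀ (e : ℕ) (d w : M), (v * v) • d = ϖ ^ e • w → ∃ g, d = ϖ ^ e • g ∧ (v * v) • g = w := by
  intro e
  induction e with
  | zero => intro d w h; exact ⟨d, by simp, by simpa using h⟩
  | succ e ih =>
    intro d w h
    have h0 : (Submodule.Quotient.mk d : QuotSMulTop ϖ M) = 0 :=
      hv.right_eq_zero_of_smul (hv.right_eq_zero_of_smul (by
        rw [← mul_smul, ← Submodule.Quotient.mk_smul, h, pow_succ', mul_smul]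
        exact (Submodule.Quotient.mk_eq_zero _).mpr
          (Submodule.smul_mem_pointwise_smul _ _ _ trivial)))
    obtain ⟨d', -, rfl⟩ :=
      (Submodule.mem_smul_pointwise_iff_exists _ _ _).mp ((Submodule.Quotient.mk_eq_zero _).mp h0)
    obtain ⟨g, rfl, hg⟩ := ih d' w (hϖ (by
      show ϖ • (v * v) • d' = ϖ • ϖ ^ e • w
      rw [smul_comm, h, pow_succ', mul_smul]))
    exact ⟨g, by rw [pow_succ', mul_smul], hg⟩

omit [IsLocalRing A] [IsNoetherianRing A] [Module.Finite A M] in
/-- Elements killing the kernels of the factors multiply to an element killing the kernel of the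
product. -/
lemma prod_smul_eq_zero {ι : Type} (f t : ι → A) (s : Finset ι)
    (ht : ∀ j ∈ s, ∀ x : M, f j • x = 0 → t j • x = 0) :
    ∀ x : M, (∏ j ∈ s, f j) • x = 0 → (∏ j ∈ s, t j) • x = 0 := by
  classical
  induction s using Finset.induction with
  | empty => intro x hx; simpa using hx
  | @insert j s hj ih =>
    intro x hx
    rw [Finset.prod_insert hj, mul_smul] at hx
    have h1 := ht j (Finset.mem_insert_self j s) _ hx
    rw [smul_comm] at h1
    have h2 := ih (fun k hk => ht k (Finset.mem_insert_of_mem hk)) _ h1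
    rw [Finset.prod_insert hj, mul_comm, mul_smul]
    exact h2

omit [IsLocalRing A] [IsNoetherianRing A] [Module.Finite A M] in
lemma mem_annihilator_quotSMulTop {ϖ t : A} (h : ∀ m : M, t • m ∈ ϖ • (⊤ : Submodule A M)) :
    t ∈ Module.annihilator A (QuotSMulTop ϖ M) := Module.mem_annihilator.mpr fun m => by
  induction m using Submodule.Quotient.induction_on with
  | _ m => rw [← Submodule.Quotient.mk_smul]; exact (Submodule.Quotient.mk_eq_zero _).mpr (h m)

variable [Nontrivial M]

/-- Ihara avoidance, scalar residual Frobenius at `q`. The inertia coordinates satisfy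
`∏ (x² + y z - ϖ ^ e_j u_j) = 0`; `g` has `ss.length - 3` elements. -/
theorem false_of_scalar (ϖ : A) (ss : List A) (hϖm : ϖ ∈ maximalIdeal A)
    (hss : ∀ s ∈ ss, s ∈ maximalIdeal A) (hreg : IsWeaklyRegular M (ϖ :: ss))
    {m : ℕ} (ε : Fin m → ℕ) (hε : ∀ j, ε j ≠ 0) (us : Fin m → A) (hus : ∀ j, IsUnit (us j))
    (x y z a b c : A) {k : ℕ} (g : Fin k → A) (hk : k + 3 ≤ ss.length)
    (hxyz : ∀ e ∈ [x, y, z, a, b, c], e ∈ maximalIdeal A) (hg : ∀ i, g i ∈ maximalIdeal A)
    (hgen : maximalIdeal A ≤ (Module.annihilator A M ⊔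
      Ideal.span ({ϖ, x, y, z, a, b, c} ∪ Set.range g)).radical)
    (hX : ∏ j, (x * x + y * z - ϖ ^ ε j * us j) ∈ Module.annihilator A M)
    (hxb : x * b - y * a ∈ Module.annihilator A M)
    (hxc : x * c - z * a ∈ Module.annihilator A M)
    (hyc : y * c - z * b ∈ Module.annihilator A M)
    (hD : ∀ m : M, (a * a + b * c) • m ∈ ϖ • (⊤ : Submodule A M)) : False := by
  simp only [List.forall_mem_cons] at hxyz
  obtain ⟨hxm, hym, hzm, ham, hbm, hcm, -⟩ := hxyz
  obtain ⟨hϖ, hregbar⟩ := (isWeaklyRegular_cons_iff M ϖ ss).mp hreg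
  have := nontrivial_quotSMulTop_of_mem_maximalIdeal M hϖm
  set Mbar := QuotSMulTop ϖ M with hMbar
  set Jbar := Module.annihilator A Mbar with hJbar
  have hle : Module.annihilator A M ≤ Jbar := annihilator_le_quotSMulTop ϖ
  have hϖJ : ϖ ∈ Jbar := QuotSMulTop.mem_annihilator M ϖ
  have hDJ : a * a + b * c ∈ Jbar := mem_annihilator_quotSMulTop hD
  have key : ∀ I : Ideal A, Jbar ≤ I → y ∈ I → x ∈ I.radical → z ∈ I.radical → a ∈ I.radical →
      b ∈ I.radical → c ∈ I.radical → (∀ i, g i ∈ I) → maximalIdeal A ≤ I.radical := by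
    intro I hJI hy hx hz ha hb hc hg'
    refine hgen.trans (Ideal.radical_le_radical_iff.mpr (sup_le ((hle.trans hJI).trans
      Ideal.le_radical) (Ideal.span_le.mpr ?_)))
    rintro e ((rfl | rfl | rfl | rfl | rfl | rfl | rfl) | ⟨i, rfl⟩)
    exacts [Ideal.le_radical (hJI hϖJ), hx, Ideal.le_radical hy, hz, ha, hb, hc,
      Ideal.le_radical (hg' i)]
  have hXr : ∀ I : Ideal A, Jbar ≤ I → y ∈ I → x ∈ I.radical := by
    intro I hJI hy
    rw [Ideal.radical_eq_sInf, Ideal.mem_sInf]
    rintro p ⟨hp, hpp⟩
    obtain ⟨j, -, hj⟩ := hpp.prod_mem_iff.mp (hp (hJI (hle hX)))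
    refine hpp.mem_of_pow_mem 2 ?_
    rw [show x ^ 2 = (x * x + y * z - ϖ ^ ε j * us j) + ϖ ^ ε j * us j - y * z by ring]
    exact sub_mem (add_mem hj (p.mul_mem_right _
      (p.pow_mem_of_mem (hp (hJI hϖJ)) _ (Nat.pos_of_ne_zero (hε j))))) (p.mul_mem_right _ (hp hy))
  have hy_reg : IsSMulRegular Mbar y := by
    let e : Fin (k + 3) → A := Fin.cons y (Fin.cons (b + z) (Fin.cons c g))
    have hem : ∀ i, e i ∈ maximalIdeal A :=
      Fin.forall_fin_succ.mpr ⟨hym, Fin.forall_fin_succ.mpr ⟨add_mem hbm hzm,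
        Fin.forall_fin_succ.mpr ⟨hcm, hg⟩⟩⟩
    set I := Jbar ⊔ Ideal.span (Set.range e) with hIdef
    have hJI : Jbar ≤ I := le_sup_left
    have hyI : y ∈ I := Ideal.mem_sup_right (Ideal.subset_span ⟨0, rfl⟩)
    have hbzI : b + z ∈ I := Ideal.mem_sup_right (Ideal.subset_span ⟨1, rfl⟩)
    have hcI : c ∈ I := Ideal.mem_sup_right (Ideal.subset_span ⟨2, rfl⟩)
    have hgI : ∀ i, g i ∈ I := fun i =>
      Ideal.mem_sup_right (Ideal.subset_span ⟨i.succ.succ.succ, rfl⟩)
    have hz : z ∈ I.radical := ⟨2, by
      rw [show z ^ 2 = z * (b + z) + (y * c - z * b) - y * c by ring]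
      exact sub_mem (add_mem (I.mul_mem_left _ hbzI) (hJI (hle hyc))) (I.mul_mem_left _ hcI)⟩
    have hb : b ∈ I.radical := by
      rw [show b = (b + z) - z by ring]
      exact sub_mem (Ideal.le_radical hbzI) hz
    have ha : a ∈ I.radical := ⟨2, by
      rw [show a ^ 2 = (a * a + b * c) - b * c by ring]
      exact sub_mem (hJI hDJ) (I.mul_mem_left _ hcI)⟩
    have hrad := key I hJI hyI (hXr I hJI hyI) hz ha hb (Ideal.le_radical hcI) hgI
    have hlen : ss.length ≤ k + 3 := length_le_of_radical (k + 3) Mbar ss hss hregbar e hem hrad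
    exact isSMulRegular_of_radical (k + 2) Mbar ss hss hregbar (by omega) e hem hrad
  -- now `(y, z, g)` cuts `M / ϖ M` down to finite length
  have hy2 : y * y * (a * a + b * c) - (x * x + y * z) * (b * b) ∈ Module.annihilator A M := by
    rw [show y * y * (a * a + b * c) - (x * x + y * z) * (b * b) =
      -((x * b - y * a) * (x * b + y * a)) + (y * c - z * b) * (y * b) by ring]
    exact add_mem (neg_mem (Ideal.mul_mem_right _ _ hxb)) (Ideal.mul_mem_right _ _ hyc)
  have hz2 : z * z * (a * a + b * c) - (x * x + y * z) * (c * c) ∈ Module.annihilator A M := by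
    rw [show z * z * (a * a + b * c) - (x * x + y * z) * (c * c) =
      -((x * c - z * a) * (x * c + z * a)) - (y * c - z * b) * (z * c) by ring]
    exact sub_mem (neg_mem (Ideal.mul_mem_right _ _ hxc)) (Ideal.mul_mem_right _ _ hyc)
  let e : Fin (k + 2) → A := Fin.cons y (Fin.cons z g)
  have hem : ∀ i, e i ∈ maximalIdeal A :=
    Fin.forall_fin_succ.mpr ⟨hym, Fin.forall_fin_succ.mpr ⟨hzm, hg⟩⟩
  set Q := Ideal.span (Set.range e) with hQ
  set I := Jbar ⊔ Q with hIdef
  have hyQ : y ∈ Q := Ideal.subset_span ⟨0, rfl⟩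
  have hzQ : z ∈ Q := Ideal.subset_span ⟨1, rfl⟩
  have hbc : b ∈ I.radical ∧ c ∈ I.radical := by
    suffices h : ∀ p : Ideal A, I ≤ p → p.IsPrime → b ∈ p ∧ c ∈ p by
      simp only [Ideal.radical_eq_sInf, Ideal.mem_sInf]
      exact ⟨fun p hp => (h p hp.1 hp.2).1, fun p hp => (h p hp.1 hp.2).2⟩
    intro p hp hpp
    have hAp : Module.annihilator A M ≤ p := hle.trans (le_sup_left.trans hp)
    -- some kernel of a factor has annihilator inside `p`
    obtain ⟨j, hj⟩ : ∃ j, ∀ t : A, (∀ x' : M, (x * x + y * z - ϖ ^ ε j * us j) • x' = 0 →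
        t • x' = 0) → t ∈ p := by
      by_contra hcon
      push Not at hcon
      choose t ht htp using hcon
      obtain ⟨j, -, hj⟩ := hpp.prod_mem_iff.mp (hAp (Module.mem_annihilator.mpr fun x' =>
        prod_smul_eq_zero _ t Finset.univ (fun j _ => ht j) x'
          (Module.mem_annihilator.mp hX x')))
      exact htp j hj
    set f := x * x + y * z - ϖ ^ ε j * us j with hf
    let Mj : Submodule A M := LinearMap.ker (LinearMap.lsmul A M f)
    obtain ⟨u, hu⟩ := hus j
    have hAj : Module.annihilator A Mj ≤ p := fun t ht => hj t fun x' hx' =>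
      congrArg Subtype.val (Module.mem_annihilator.mp ht (⟨x', hx'⟩ : Mj))
    have hwsq : ∀ (t w : A), t ∈ Q →
        t * t * (a * a + b * c) - (x * x + y * z) * (w * w) ∈ Module.annihilator A M →
        w ∈ p := by
      intro t w htQ ht
      refine hpp.mem_of_pow_mem 2 (mem_of_annihilator_quotient_mem Mj Q
        (sup_le hAj (le_sup_right.trans hp)) hpp (Module.mem_annihilator.mpr fun n => ?_))
      induction n using Submodule.Quotient.induction_on with
      | _ n =>
      rw [← Submodule.Quotient.mk_smul]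
      refine (Submodule.Quotient.mk_eq_zero _).mpr ?_
      have hn : f • (n : M) = 0 := n.2
      have hyy : (y * y) • (a * a + b * c) • (n : M) = ϖ ^ ε j • (us j * (b * b)) • (n : M) := by
        rw [← mul_smul, ← mul_smul, ← sub_eq_zero, ← sub_smul,
          show y * y * (a * a + b * c) - ϖ ^ ε j * (us j * (b * b)) =
            (y * y * (a * a + b * c) - (x * x + y * z) * (b * b)) + (b * b) * f by rw [hf]; ring,
          add_smul, mul_smul (b * b), hn, smul_zero, add_zero]
        exact Module.mem_annihilator.mp hy2 _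
      obtain ⟨n', hn', -⟩ := exists_smul_eq_of_regular_mod hϖ hy_reg _ _ _ hyy
      have hn'mem : n' ∈ Mj := by
        refine (hϖ.pow (ε j)).right_eq_zero_of_smul ?_
        show ϖ ^ ε j • f • n' = 0
        rw [smul_comm, ← hn', smul_comm, hn, smul_zero]
      have htt : (t * t) • n' = (us j * (w * w)) • (n : M) := by
        refine (hϖ.pow (ε j)) ?_
        show ϖ ^ ε j • (t * t) • n' = ϖ ^ ε j • (us j * (w * w)) • (n : M)
        rw [smul_comm, ← hn', ← mul_smul, ← mul_smul, ← sub_eq_zero, ← sub_smul,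
          show t * t * (a * a + b * c) - ϖ ^ ε j * (us j * (w * w)) =
            (t * t * (a * a + b * c) - (x * x + y * z) * (w * w)) + (w * w) * f by rw [hf]; ring,
          add_smul, mul_smul (w * w), hn, smul_zero, add_zero]
        exact Module.mem_annihilator.mp ht _
      have hw : w ^ 2 • n = t • t • (↑u⁻¹ : A) • (⟨n', hn'mem⟩ : Mj) := Subtype.ext (by
        show w ^ 2 • (n : M) = t • t • (↑u⁻¹ : A) • n'
        rw [← mul_smul t t, smul_comm, htt, ← mul_smul, ← hu, ← mul_assoc, Units.inv_mul,
          one_mul, sq])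
      rw [hw]
      exact Submodule.smul_mem_smul htQ trivial
    exact ⟨hwsq y b hyQ hy2, hwsq z c hzQ hz2⟩
  obtain ⟨hb, hc⟩ := hbc
  have ha : a ∈ I.radical := by
    have hsq' : a * a ∈ I.radical := by
      rw [show a * a = (a * a + b * c) - b * c by ring]
      exact sub_mem (Ideal.le_radical (Ideal.mem_sup_left hDJ)) (I.radical.mul_mem_left _ hc)
    exact Ideal.radical_idem I ▸ ⟨2, by rwa [pow_two]⟩
  have := length_le_of_radical (k + 2) Mbar ss hss hregbar e hem
    (key I le_sup_left (Ideal.mem_sup_right hyQ) (hXr I le_sup_left (Ideal.mem_sup_right hyQ))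
      (Ideal.le_radical (Ideal.mem_sup_right hzQ)) ha hb hc
      fun i => Ideal.mem_sup_right (Ideal.subset_span ⟨i.succ.succ, rfl⟩))
  omega

/-- Ihara avoidance, non-scalar residual Frobenius at `q`: inertia is `u₀ + v Φ` with
`∏ (v² D - ϖ ^ e_j w_j) = 0`; `g` has `ss.length - 1` elements. -/
theorem false_of_nonscalar (ϖ : A) (ss : List A) (hϖm : ϖ ∈ maximalIdeal A)
    (hss : ∀ s ∈ ss, s ∈ maximalIdeal A) (hreg : IsWeaklyRegular M (ϖ :: ss))
    {m : ℕ} (ε : Fin m → ℕ) (ws : Fin m → A) (hws : ∀ j, IsUnit (ws j))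
    (v D : A) {k : ℕ} (g : Fin k → A) (hk : k + 1 ≤ ss.length)
    (hvm : v ∈ maximalIdeal A) (hg : ∀ i, g i ∈ maximalIdeal A)
    (hgen : maximalIdeal A ≤
      (Module.annihilator A M ⊔ Ideal.span ({ϖ, v, D} ∪ Set.range g)).radical)
    (hrel : ∏ j, (v * v * D - ϖ ^ ε j * ws j) ∈ Module.annihilator A M)
    (hD : ∀ m : M, D • m ∈ ϖ • (⊤ : Submodule A M)) : False := by
  obtain ⟨hϖ, hregbar⟩ := (isWeaklyRegular_cons_iff M ϖ ss).mp hreg
  have := nontrivial_quotSMulTop_of_mem_maximalIdeal M hϖm
  set Mbar := QuotSMulTop ϖ M with hMbar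
  let e : Fin (k + 1) → A := Fin.cons v g
  have hem : ∀ i, e i ∈ maximalIdeal A := Fin.forall_fin_succ.mpr ⟨hvm, hg⟩
  have hrad : maximalIdeal A ≤
      (Module.annihilator A Mbar ⊔ Ideal.span (Set.range e)).radical := by
    refine hgen.trans (Ideal.radical_mono (sup_le (le_sup_of_le_left
      (annihilator_le_quotSMulTop ϖ)) (Ideal.span_le.mpr ?_)))
    rintro t ((rfl | rfl | rfl) | ⟨i, rfl⟩)
    · exact Ideal.mem_sup_left (QuotSMulTop.mem_annihilator M _)
    · exact Ideal.mem_sup_right (Ideal.subset_span ⟨0, rfl⟩)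
    · exact Ideal.mem_sup_left (mem_annihilator_quotSMulTop hD)
    · exact Ideal.mem_sup_right (Ideal.subset_span ⟨i.succ, rfl⟩)
  have hlen := length_le_of_radical (k + 1) Mbar ss hss hregbar e hem hrad
  have hv : IsSMulRegular Mbar v :=
    isSMulRegular_of_radical k Mbar ss hss hregbar (by omega) e hem hrad
  -- every factor is injective on `M`, so their product does not vanish
  have hinj : ∀ j, ∀ n : M, (v * v * D - ϖ ^ ε j * ws j) • n = 0 → n = 0 := by
    intro j
    set f := v * v * D - ϖ ^ ε j * ws j with hf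
    let Mj : Submodule A M := LinearMap.ker (LinearMap.lsmul A M f)
    obtain ⟨u, hu⟩ := hws j
    have hfg : Mj ≤ maximalIdeal A • Mj := by
      intro n hn
      have hn0 : f • n = 0 := hn
      have hvv : (v * v) • D • n = ϖ ^ ε j • ws j • n := by
        rw [← mul_smul, ← mul_smul, ← sub_eq_zero, ← sub_smul, ← hf, hn0]
      obtain ⟨n', hn', hn''⟩ := exists_smul_eq_of_regular_mod hϖ hv _ _ _ hvv
      have hn'mem : n' ∈ Mj := by
        refine (hϖ.pow (ε j)).right_eq_zero_of_smul ?_
        show ϖ ^ ε j • f • n' = 0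
        rw [smul_comm, ← hn', smul_comm, hn0, smul_zero]
      have : n = v • v • (↑u⁻¹ : A) • n' := by
        rw [← mul_smul v v, smul_comm, hn'', ← mul_smul, ← hu, Units.inv_mul, one_smul]
      rw [this]
      exact Submodule.smul_mem_smul hvm (Mj.smul_mem _ (Mj.smul_mem _ hn'mem))
    have hbot : Mj = ⊥ := Submodule.eq_bot_of_le_smul_of_le_jacobson_bot _ _
      (IsNoetherian.noetherian _) hfg (maximalIdeal_le_jacobson _)
    intro n hn
    exact (Submodule.mem_bot A).mp (hbot ▸ (show n ∈ Mj from hn))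
  obtain ⟨n, hn⟩ := exists_ne (0 : M)
  refine hn ?_
  simpa using prod_smul_eq_zero (fun j => v * v * D - ϖ ^ ε j * ws j) (fun _ => (1 : A))
    Finset.univ (fun j _ n' h' => by rw [hinj j n' h', smul_zero]) n
    (Module.mem_annihilator.mp hrel n)

end Main

end FLTA.Patching
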