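import Mathlib.RingTheory.Regular.Free
import Mathlib.RingTheory.Regular.RegularSequence
import Mathlib.RingTheory.Ideal.AssociatedPrime.Finiteness
import Mathlib.RingTheory.Noetherian.Basic
import Mathlib.RingTheory.LocalRing.Quotient
import Mathlib.Algebra.Module.FinitePresentation
import Mathlib.LinearAlgebra.Basis.VectorSpace

/-!
Freeness of a finite module admitting a weakly regular sequence of length `n` over a Noetherian
local ring whose maximal ideal is generated by `n` elements.
-/

set_option autoImplicit false

namespace FLTA.Patching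

open IsLocalRing RingTheory.Sequence
open scoped Pointwise

section

variable {A : Type} [CommRing A] [IsLocalRing A]

/-- `M` has no nonzero element killed by the maximal ideal. -/
def NoSocle (A : Type) [CommRing A] [IsLocalRing A] (M : Type) [AddCommGroup M] [Module A M] :
    Prop :=
  ∀ m : M, (∀ z ∈ maximalIdeal A, z • m = 0) → m = 0

lemma noSocle_of_isSMulRegular {M : Type} [AddCommGroup M] [Module A M] {x : A}
    (hx : x ∈ maximalIdeal A) (h : IsSMulRegular M x) : NoSocle A M :=
  fun _ hm => h.right_eq_zero_of_smul (hm x hx)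

lemma NoSocle.prod {M M' : Type} [AddCommGroup M] [Module A M] [AddCommGroup M'] [Module A M']
    (h : NoSocle A M) (h' : NoSocle A M') : NoSocle A (M × M') := fun m hm =>
  Prod.ext (h m.1 fun z hz => congrArg Prod.fst (hm z hz))
    (h' m.2 fun z hz => congrArg Prod.snd (hm z hz))

lemma NoSocle.quot_exchange {M : Type} [AddCommGroup M] [Module A M] {x y : A}
    (hxm : x ∈ maximalIdeal A) (hx : IsSMulRegular M x) (hy : IsSMulRegular M y)
    (h : NoSocle A (QuotSMulTop x M)) : NoSocle A (QuotSMulTop y M) := by
  intro m hm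
  induction m using Submodule.Quotient.induction_on with
  | _ a =>
  have hmem : ∀ z ∈ maximalIdeal A, z • a ∈ y • (⊤ : Submodule A M) := fun z hz =>
    (Submodule.Quotient.mk_eq_zero _).mp (hm z hz)
  obtain ⟨b, -, hb⟩ := (Submodule.mem_smul_pointwise_iff_exists _ _ _).mp (hmem x hxm)
  have hb0 : (Submodule.Quotient.mk b : QuotSMulTop x M) = 0 := by
    refine h _ fun z hz => (Submodule.Quotient.mk_eq_zero _).mpr ?_
    obtain ⟨c, -, hc⟩ := (Submodule.mem_smul_pointwise_iff_exists _ _ _).mp (hmem z hz)
    refine (Submodule.mem_smul_pointwise_iff_exists _ _ _).mpr ⟨c, trivial, hy ?_⟩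
    show y • x • c = y • z • b
    rw [smul_comm y z b, hb, smul_comm y x c, hc, smul_comm]
  obtain ⟨b', -, hb'⟩ :=
    (Submodule.mem_smul_pointwise_iff_exists _ _ _).mp ((Submodule.Quotient.mk_eq_zero _).mp hb0)
  refine (Submodule.Quotient.mk_eq_zero _).mpr
    ((Submodule.mem_smul_pointwise_iff_exists _ _ _).mpr ⟨b', trivial, hx ?_⟩)
  show x • y • b' = x • a
  rw [smul_comm, hb', hb]

/-- Prime avoidance: a regular element in the maximal ideal avoiding a given ideal. -/
lemma NoSocle.exists_regular [IsNoetherianRing A] {M : Type} [AddCommGroup M] [Module A M]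
    [Module.Finite A M] (h : NoSocle A M) (J : Ideal A) (hJ : ¬ maximalIdeal A ≤ J) :
    ∃ z, z ∈ maximalIdeal A ∧ z ∉ J ∧ IsSMulRegular M z := by
  classical
  have hfin := associatedPrimes.finite A M
  have hp : ∀ p ∈ associatedPrimes A M, ¬ maximalIdeal A ≤ p := by
    intro p hp hle
    obtain ⟨hprime, m, hm⟩ := isAssociatedPrime_iff.mp hp
    have hmem : ∀ z, z ∈ p ↔ z • m = 0 := fun z => by
      rw [hm, Submodule.mem_colon_singleton, Submodule.mem_bot]
    refine hprime.ne_top (Ideal.eq_top_of_isUnit_mem _ ((hmem 1).mpr ?_) isUnit_one)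
    rw [one_smul]
    exact h m fun z hz => (hmem z).mp (hle hz)
  by_contra hcon
  push Not at hcon
  let f : Option (Ideal A) → Ideal A := fun o => o.getD J
  let s : Finset (Option (Ideal A)) := insert none (hfin.toFinset.image some)
  have hsub : ((maximalIdeal A : Ideal A) : Set A) ⊆ ⋃ i ∈ (↑s : Set (Option (Ideal A))), f i := by
    intro z hz
    by_cases hzJ : z ∈ J
    · exact Set.mem_biUnion (x := none) (by simp [s]) hzJ
    · have hnr := hcon z hz hzJ
      obtain ⟨m, hm, hm0⟩ : ∃ m : M, m ≠ 0 ∧ z • m = 0 := by
        by_contra hc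
        push Not at hc
        refine hnr ?_
        intro a b hab
        by_contra hne
        exact hc (a - b) (sub_ne_zero.mpr hne) (by
          rw [smul_sub, sub_eq_zero]; exact hab)
      have : z ∈ ⋃ p ∈ associatedPrimes A M, (p : Set A) := by
        rw [biUnion_associatedPrimes_eq_zero_divisors]
        exact ⟨m, hm, hm0⟩
      obtain ⟨p, hp', hzp⟩ := Set.mem_iUnion₂.mp this
      exact Set.mem_biUnion (x := some p) (by simp [s, hfin.mem_toFinset, hp']) hzp
  have hprimes : ∀ i ∈ s, i ≠ none → i ≠ none → (f i).IsPrime := by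
    intro i hi hne _
    rcases Finset.mem_insert.mp hi with rfl | hi
    · exact absurd rfl hne
    · obtain ⟨p, hp', rfl⟩ := Finset.mem_image.mp hi
      exact (hfin.mem_toFinset.mp hp').isPrime
  obtain ⟨i, hi, hle⟩ := (Ideal.subset_union_prime none none hprimes).mp hsub
  rcases Finset.mem_insert.mp hi with rfl | hi
  · exact hJ hle
  · obtain ⟨p, hp', rfl⟩ := Finset.mem_image.mp hi
    exact hp p (hfin.mem_toFinset.mp hp') hle

/-- Exchange: any regular element of the maximal ideal starts a weakly regular sequence as long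
as any given one. -/
theorem exists_isWeaklyRegular_cons [IsNoetherianRing A] :
    ∀ (n : ℕ) (M : Type) [AddCommGroup M] [Module A M] [Module.Finite A M] (rs : List A),
      rs.length = n + 1 → (∀ r ∈ rs, r ∈ maximalIdeal A) → IsWeaklyRegular M rs →
      ∀ y ∈ maximalIdeal A, IsSMulRegular M y →
      ∃ ws : List A, ws.length = n ∧ (∀ r ∈ ws, r ∈ maximalIdeal A) ∧
        IsWeaklyRegular M (y :: ws) := by
  intro n
  induction n with
  | zero =>
    intro M _ _ _ rs _ _ _ y _ hy
    exact ⟨[], rfl, by simp, (isWeaklyRegular_singleton_iff M y).mpr hy⟩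
  | succ n ih =>
    intro M _ _ _ rs hlen hmem hreg y hym hy
    match rs, hlen with
    | x :: x₂ :: rest, hlen =>
      simp only [List.length_cons, Nat.add_right_cancel_iff] at hlen
      have hxm : x ∈ maximalIdeal A := hmem x (by simp)
      obtain ⟨hx, hreg'⟩ := (isWeaklyRegular_cons_iff M x _).mp hreg
      have hx₂ := ((isWeaklyRegular_cons_iff _ x₂ rest).mp hreg').1
      have hsx : NoSocle A (QuotSMulTop x M) := noSocle_of_isSMulRegular (hmem x₂ (by simp)) hx₂
      have hall := ((noSocle_of_isSMulRegular hxm hx).prod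
        (hsx.prod (NoSocle.quot_exchange hxm hx hy hsx)))
      by_cases hm : maximalIdeal A ≤ ⊥
      · refine ⟨List.replicate (n + 1) y, by simp, fun r hr => (List.eq_of_mem_replicate hr) ▸ hym,
          ?_⟩
        have hy0 : y = 0 := by simpa using hm hym
        subst hy0
        have : Subsingleton M := IsSMulRegular.zero_iff_subsingleton.mp hy
        exact ⟨fun i _ a b _ => Subsingleton.elim a b⟩
      obtain ⟨z, hzm, -, hz⟩ := hall.exists_regular ⊥ hm
      have hzM : IsSMulRegular M z := fun a b hab => by
        have := @hz (a, 0) (b, 0) (Prod.ext hab (by simp))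
        exact congrArg Prod.fst this
      have hzx : IsSMulRegular (QuotSMulTop x M) z := fun a b hab => by
        have := @hz (0, a, 0) (0, b, 0) (Prod.ext (by simp) (Prod.ext hab (by simp)))
        exact congrArg (fun t => t.2.1) this
      have hzy : IsSMulRegular (QuotSMulTop y M) z := fun a b hab => by
        have := @hz (0, 0, a) (0, 0, b) (Prod.ext (by simp) (Prod.ext (by simp) hab))
        exact congrArg (fun t => t.2.2) this
      obtain ⟨ws, hwl, hwm, hw⟩ := ih (QuotSMulTop x M) (x₂ :: rest) (by simp [hlen])
        (fun r hr => hmem r (List.mem_cons_of_mem _ hr)) hreg' z hzm hzx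
      have hperm₁ : IsWeaklyRegular M (z :: x :: ws) := by
        refine IsLocalRing.isWeaklyRegular_of_perm_of_subset_maximalIdeal
          ((isWeaklyRegular_cons_iff M x _).mpr ⟨hx, hw⟩) (List.Perm.swap z x ws) ?_
        exact List.forall_mem_cons.mpr ⟨hxm, List.forall_mem_cons.mpr ⟨hzm, hwm⟩⟩
      have hzy' : IsWeaklyRegular M [z, y] := by
        refine IsLocalRing.isWeaklyRegular_of_perm_of_subset_maximalIdeal
          (rs := [y, z]) ?_ (List.Perm.swap z y []) ?_
        swap
        · exact List.forall_mem_cons.mpr ⟨hym, List.forall_mem_cons.mpr ⟨hzm, by simp⟩⟩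
        exact (isWeaklyRegular_cons_iff M y _).mpr ⟨hy, (isWeaklyRegular_singleton_iff _ z).mpr hzy⟩
      have hy' : IsSMulRegular (QuotSMulTop z M) y :=
        (isWeaklyRegular_singleton_iff _ y).mp ((isWeaklyRegular_cons_iff M z _).mp hzy').2
      obtain ⟨us, hul, hum, hu⟩ := ih (QuotSMulTop z M) (x :: ws) (by simp [hwl])
        (List.forall_mem_cons.mpr ⟨hxm, hwm⟩) ((isWeaklyRegular_cons_iff M z _).mp hperm₁).2 y hym hy'
      refine ⟨z :: us, by simp [hul], List.forall_mem_cons.mpr ⟨hzm, hum⟩, ?_⟩
      refine IsLocalRing.isWeaklyRegular_of_perm_of_subset_maximalIdeal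
        ((isWeaklyRegular_cons_iff M z _).mpr ⟨hzM, hu⟩) (List.Perm.swap y z us) ?_
      exact List.forall_mem_cons.mpr ⟨hzm, List.forall_mem_cons.mpr ⟨hym, hum⟩⟩

end

/-- Auslander–Buchsbaum in the case needed here, without any dimension theory. -/
theorem free_of_isWeaklyRegular_of_maximalIdeal_eq_span :
    ∀ (n : ℕ) (A : Type) [CommRing A] [IsLocalRing A] [IsNoetherianRing A] (g : Fin n → A),
      maximalIdeal A = Ideal.span (Set.range g) →
      ∀ (M : Type) [AddCommGroup M] [Module A M] [Module.Finite A M] (rs : List A),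
        rs.length = n → (∀ r ∈ rs, r ∈ maximalIdeal A) → IsWeaklyRegular M rs →
        Module.Free A M := by
  intro n
  induction n with
  | zero =>
    intro A _ _ _ g hg M _ _ _ rs _ _ _
    have : IsField A := by
      rw [isField_iff_maximalIdeal_eq, hg, Set.range_eq_empty, Ideal.span_empty]
    let := this.toField
    exact Module.Free.of_basis (Module.Basis.ofVectorSpace A M)
  | succ n ih =>
    intro A _ _ _ g hg M _ _ _ rs hlen hmem hreg
    match rs, hlen with
    | x :: rest, hlen =>
      have hxm : x ∈ maximalIdeal A := hmem x (by simp)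
      have hx := ((isWeaklyRegular_cons_iff M x rest).mp hreg).1
      rcases subsingleton_or_nontrivial M with hM | hM
      · infer_instance
      have hsq : ¬ maximalIdeal A ≤ maximalIdeal A • maximalIdeal A := by
        intro hle
        have h0 : maximalIdeal A = ⊥ := Submodule.eq_bot_of_le_smul_of_le_jacobson_bot _ _
          (IsNoetherian.noetherian _) hle (maximalIdeal_le_jacobson _)
        rw [h0, Ideal.mem_bot] at hxm
        subst hxm
        exact not_subsingleton M (IsSMulRegular.zero_iff_subsingleton.mp hx)
      obtain ⟨y, hym, hysq, hy⟩ := (noSocle_of_isSMulRegular hxm hx).exists_regular _ hsq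
      obtain ⟨ws, hwl, hwm, hw⟩ := exists_isWeaklyRegular_cons n M (x :: rest) hlen hmem hreg y
        hym hy
      obtain ⟨c, hc⟩ := Ideal.mem_span_range_iff_exists_fun.mp (hg ▸ hym : y ∈ Ideal.span _)
      obtain ⟨i, hi⟩ : ∃ i, IsUnit (c i) := by
        by_contra hcon
        push Not at hcon
        refine hysq ?_
        rw [← hc]
        refine Submodule.sum_mem _ fun i _ => Submodule.smul_mem_smul (hcon i) ?_
        exact hg ▸ Ideal.subset_span ⟨i, rfl⟩
      have : Nontrivial (A ⧸ Ideal.span {y}) := Ideal.Quotient.nontrivial_iff.mpr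
        fun h => (Ideal.span_singleton_eq_top.mp h |> fun hu => hym hu)
      have hloc : IsLocalRing (A ⧸ Ideal.span {y}) :=
        IsLocalRing.of_surjective' (Ideal.Quotient.mk _) Ideal.Quotient.mk_surjective
      set q := Ideal.Quotient.mk (Ideal.span {y}) with hqdef
      have hqmax : maximalIdeal (A ⧸ Ideal.span {y}) = (maximalIdeal A).map q := by
        refine (IsLocalRing.eq_maximalIdeal ?_).symm
        refine (Ideal.map_eq_top_or_isMaximal_of_surjective q Ideal.Quotient.mk_surjective
          inferInstance).resolve_left fun htop => ?_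
        have := congrArg (Ideal.comap q) htop
        rw [Ideal.comap_map_of_surjective _ Ideal.Quotient.mk_surjective, Ideal.comap_top,
          ← RingHom.ker_eq_comap_bot, Ideal.mk_ker, sup_eq_left.mpr
            ((Ideal.span_singleton_le_iff_mem _).mpr hym)] at this
        exact (maximalIdeal.isMaximal A).ne_top this
      let g' : Fin n → A ⧸ Ideal.span {y} := fun j => q (g (i.succAbove j))
      have hg' : maximalIdeal (A ⧸ Ideal.span {y}) = Ideal.span (Set.range g') := by
        rw [hqmax, hg, Ideal.map_span]
        apply le_antisymm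
        · rw [Ideal.span_le]
          rintro - ⟨-, ⟨k, rfl⟩, rfl⟩
          rcases Fin.eq_self_or_eq_succAbove i k with rfl | ⟨j, rfl⟩
          · obtain ⟨u, hu⟩ := hi
            have h0 : q (c k) * q (g k) + ∑ j, q (c (k.succAbove j)) * g' j = 0 := by
              have hy0 : q y = 0 := Ideal.Quotient.eq_zero_iff_mem.mpr
                (Ideal.mem_span_singleton_self y)
              have hsum : q (∑ j, c j * g j) = q y := congrArg q hc
              rw [hy0, map_sum, Fin.sum_univ_succAbove _ k] at hsum
              simpa [g', map_mul] using hsum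
            have hk : q (g k) = q ((u⁻¹ : Aˣ) : A) * (q (c k) * q (g k)) := by
              rw [← mul_assoc, ← map_mul, ← hu, Units.inv_mul, map_one, one_mul]
            rw [SetLike.mem_coe, hk, eq_neg_of_add_eq_zero_left h0]
            refine Ideal.mul_mem_left _ _ (neg_mem (Submodule.sum_mem _ fun j _ => ?_))
            exact Ideal.mul_mem_left _ _ (Ideal.subset_span ⟨j, rfl⟩)
          · exact Ideal.subset_span ⟨j, rfl⟩
        · exact Ideal.span_mono (by rintro - ⟨j, rfl⟩; exact ⟨_, ⟨_, rfl⟩, rfl⟩)
      have : IsNoetherianRing (A ⧸ Ideal.span {y}) :=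
        isNoetherianRing_of_surjective A _ q Ideal.Quotient.mk_surjective
      have : Module.FinitePresentation A M := Module.finitePresentation_of_finite A M
      have hw' := ((isWeaklyRegular_cons_iff' M y ws).mp hw).2
      have : Module.Finite (A ⧸ Ideal.span {y}) (QuotSMulTop y M) :=
        Module.Finite.of_restrictScalars_finite A _ _
      have hfree : Module.Free (A ⧸ Ideal.span {y}) (QuotSMulTop y M) := by
        refine ih _ g' hg' (QuotSMulTop y M) (ws.map q) (by simp [hwl]) ?_ hw'
        intro r hr
        obtain ⟨w, hw₁, rfl⟩ := List.mem_map.mp hr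
        rw [hqmax]
        exact Ideal.mem_map_of_mem _ (hwm w hw₁)
      exact (Module.free_quotSMulTop_iff_free A M (maximalIdeal_le_jacobson _ hym) hy).mp hfree

end FLTA.Patching
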