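import Fermat.Agent.Patching.PowerSeriesSeq
import Fermat.Prelude.Def_Algebra_PatchingDatum
import Mathlib.RingTheory.Finiteness.Basic
import Mathlib.LinearAlgebra.Finsupp.Pi

/-!
Descent step of patching: a level with trivial relation ideal.
-/

set_option autoImplicit false

namespace FLTA.Patching

open RingTheory.Sequence IsLocalRing

variable {O : Type} [CommRing O] [IsDomain O] [IsDiscreteValuationRing O]
  {r : ℕ} {R : Type} [CommRing R] [Algebra O R]
  {M : Type} [AddCommGroup M] [Module R M] [Nontrivial M]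

theorem free_and_ker_eq (L : Algebra.PatchingLevel O r R M ⊥) :
    Module.Free R M ∧ Module.annihilator R M = ⊥ ∧
      RingHom.ker L.ψ = Ideal.span (Set.range fun i : Fin r => L.φ (MvPowerSeries.X i)) := by
  classical
  obtain ⟨ϖ, hϖirr⟩ := IsDiscreteValuationRing.exists_irreducible O
  have hϖ : maximalIdeal O = Ideal.span {ϖ} := hϖirr.maximalIdeal_eq
  have : Nontrivial R := Module.nontrivial R M
  have : Nontrivial L.N := L.π_surjective.nontrivial
  set a : Ideal (MvPowerSeries (Fin r) O) :=
    Ideal.span (Set.range fun i : Fin r => L.φ (MvPowerSeries.X i)) with ha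
  have hmax := maximalIdeal_eq_span_psSeq (r := r) hϖ
  -- the images of the parameters lie in the maximal ideal
  have hmem : ∀ j, L.φ (psSeq ϖ j) ∈ maximalIdeal (MvPowerSeries (Fin r) O) := by
    intro j
    refine Fin.lastCases ?_ (fun j => ?_) j
    · have h : L.φ (MvPowerSeries.C ϖ) = MvPowerSeries.C ϖ := L.φ.commutes ϖ
      rw [psSeq, Fin.snoc_last, h, hmax]
      exact Ideal.subset_span ⟨Fin.last r, by simp [psSeq]⟩
    · rw [psSeq, Fin.snoc_castSucc]
      intro hu
      exact not_isUnit_zero (M₀ := R) (L.ψ_φ_X j ▸ hu.map L.ψ)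
  -- `N` is free over the source copy of the power series ring
  let e₀ : (Fin L.d → MvPowerSeries (Fin r) O) →+ L.N :=
    { toFun := fun c => ∑ i, L.φ (c i) • L.b i
      map_zero' := by simp
      map_add' := fun c c' => by simp [add_smul, Finset.sum_add_distrib] }
  have he₀ : Function.Bijective e₀ := by
    refine ⟨(injective_iff_map_eq_zero e₀).mpr fun c hc => funext fun i => ?_, fun x => ?_⟩
    · simpa using (L.b_rel c).mp hc i
    · obtain ⟨c, hc⟩ := L.b_span x
      exact ⟨c, hc.symm⟩
  let e := AddEquiv.ofBijective e₀ he₀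
  have hreg₀ : IsWeaklyRegular (Fin L.d → MvPowerSeries (Fin r) O)
      (List.ofFn (psSeq (r := r) ϖ)) :=
    isWeaklyRegular_pi _ (psSeq_list_isWeaklyRegular ϖ hϖirr.ne_zero)
  have hreg : IsWeaklyRegular L.N ((List.ofFn (psSeq (r := r) ϖ)).map L.φ) := by
    refine (e.isWeaklyRegular_congr ?_).mp hreg₀
    refine List.forall₂_map_right_iff.mpr (List.forall₂_same.mpr fun x _ c => ?_)
    show ∑ i, L.φ (x * c i) • L.b i = L.φ x • ∑ i, L.φ (c i) • L.b i
    simp [map_mul, mul_smul, Finset.smul_sum]
  have : Module.Finite (MvPowerSeries (Fin r) O) L.N :=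
    ⟨Submodule.fg_def.mpr ⟨Set.range L.b, Set.finite_range _, eq_top_iff.mpr fun x _ => by
      obtain ⟨c, hc⟩ := L.b_span x
      rw [hc]
      exact Submodule.sum_mem _ fun i _ => Submodule.smul_mem _ _ (Submodule.subset_span ⟨i, rfl⟩)⟩⟩
  have hfree : Module.Free (MvPowerSeries (Fin r) O) L.N :=
    free_of_isWeaklyRegular_of_maximalIdeal_eq_span (r + 1) _ _ hmax L.N _ (by simp) (by
      intro x hx
      obtain ⟨y, hy, rfl⟩ := List.mem_map.mp hx
      obtain ⟨j, rfl⟩ := (List.mem_ofFn' _ _).mp hy
      exact hmem j) hreg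
  let B := Module.Free.chooseBasis (MvPowerSeries (Fin r) O) L.N
  have hψa : a ≤ RingHom.ker L.ψ := Ideal.span_le.mpr (by rintro - ⟨i, rfl⟩; exact L.ψ_φ_X i)
  obtain ⟨i₀⟩ : Nonempty (Module.Free.ChooseBasisIndex (MvPowerSeries (Fin r) O) L.N) :=
    B.index_nonempty
  have hcoeff : ∀ {x : L.N}, x ∈ a • (⊤ : Submodule (MvPowerSeries (Fin r) O) L.N) →
      ∀ i, B.repr x i ∈ a := by
    intro x hx i
    refine Submodule.smul_induction_on (p := fun x => B.repr x i ∈ a) hx ?_ ?_
    · intro s hs n _
      simpa using Ideal.mul_mem_right _ a hs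
    · intro u v hu hv
      simpa using add_mem hu hv
  have hker : RingHom.ker L.ψ = a := by
    refine le_antisymm (fun f hf => ?_) hψa
    have : f • B i₀ ∈ a • (⊤ : Submodule (MvPowerSeries (Fin r) O) L.N) := by
      rw [← L.ker_π, L.π_smul, RingHom.mem_ker.mp hf, zero_smul]
    simpa using hcoeff this i₀
  have hli : LinearIndependent R (fun i => L.π (B i)) := by
    rw [linearIndependent_iff']
    intro s g hg i hi
    choose f hf using fun j => L.ψ_surjective (g j)
    have h0 : L.π (∑ j ∈ s, f j • B j) = 0 := by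
      rw [map_sum]
      simpa [L.π_smul, hf] using hg
    have := hcoeff ((L.ker_π _).mp h0) i
    simp [Finsupp.single_apply, hi] at this
    rw [← hf i]
    exact hψa this
  have hsp : ⊤ ≤ Submodule.span R (Set.range fun i => L.π (B i)) := by
    intro m hm
    clear hm
    obtain ⟨x, rfl⟩ := L.π_surjective m
    have hx : x ∈ Submodule.span (MvPowerSeries (Fin r) O) (Set.range B) := B.mem_span x
    induction hx using Submodule.span_induction with
    | mem y hy =>
      obtain ⟨i, rfl⟩ := hy
      exact Submodule.subset_span ⟨i, rfl⟩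
    | zero => simp
    | add u v _ _ hu hv =>
      rw [map_add]
      exact add_mem hu hv
    | smul c u _ hu =>
      rw [L.π_smul]
      exact Submodule.smul_mem _ _ hu
  have hM : Module.Free R M := Module.Free.of_basis (Module.Basis.mk hli hsp)
  refine ⟨hM, ?_, hker⟩
  rw [Submodule.eq_bot_iff]
  intro x hx
  have h := Module.mem_annihilator.mp hx (L.π (B i₀))
  have := linearIndependent_iff'.mp hli {i₀} (fun _ => x) (by simpa using h) i₀
    (Finset.mem_singleton_self i₀)
  exact this

end FLTA.Patching
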