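import Fermat.Agent.Patching.PowerSeriesSeq
import Mathlib.Order.Filter.Ultrafilter.Defs
import Mathlib.Order.Filter.Cofinite
import Mathlib.RingTheory.AdicCompletion.Basic
import Mathlib.RingTheory.Filtration
import Mathlib.LinearAlgebra.Matrix.ToLin
import Mathlib.RingTheory.Artinian.Ring

/-!
The patching construction, by an ultrafilter limit of matrix representations.

Input: a ring `P₀` (any complete local ring mapping to all the levels) and ring maps
`ρ n : P₀ → Mat_d (S ⧸ J n)` with `J n ≤ 𝔪 ^ n`.  Output: `patch : P₀ → Mat_d S`, with the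
transfer lemmas: exact relations, congruences modulo any ideal, scalars in the image, finiteness.
-/

set_option autoImplicit false

noncomputable section

namespace FLTA.Patching

open IsLocalRing Filter

section Limit

variable {S : Type} [CommRing S] [IsLocalRing S]

/-- The ultrafilter used for all patching limits. -/
abbrev patchFilter : Ultrafilter ℕ := Filter.hyperfilter ℕ

lemma eventually_ge_patchFilter (N : ℕ) : ∀ᶠ n in (patchFilter : Filter ℕ), N ≤ n := by
  refine Filter.hyperfilter_le_cofinite ?_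
  rw [Filter.mem_cofinite]
  refine (Set.finite_Iio N).subset fun n hn => ?_
  simpa using hn

variable [IsAdicComplete (maximalIdeal S) S]

lemma exists_limit (hfin : ∀ N, Finite (S ⧸ maximalIdeal S ^ N)) (x : ℕ → S) :
    ∃ L, ∀ N, ∀ᶠ n in (patchFilter : Filter ℕ), x n - L ∈ maximalIdeal S ^ N := by
  have hcls : ∀ N, ∃ c : S, ∀ᶠ n in (patchFilter : Filter ℕ), x n - c ∈ maximalIdeal S ^ N := by
    intro N
    have := hfin N
    have hex : ∀ᶠ n in (patchFilter : Filter ℕ), ∃ c : S ⧸ maximalIdeal S ^ N,
        Ideal.Quotient.mk _ (x n) = c := Filter.Eventually.of_forall fun n => ⟨_, rfl⟩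
    obtain ⟨c, hc⟩ := Ultrafilter.eventually_exists_iff.mp hex
    obtain ⟨c, rfl⟩ := Ideal.Quotient.mk_surjective c
    exact ⟨c, hc.mono fun n hn => Ideal.Quotient.eq.mp hn⟩
  choose c hc using hcls
  have hcauchy : ∀ {m n : ℕ}, m ≤ n →
      c m ≡ c n [SMOD (maximalIdeal S ^ m • ⊤ : Submodule S S)] := by
    intro m n hmn
    rw [SModEq.sub_mem, smul_eq_mul, Ideal.mul_top]
    obtain ⟨k, h₁, h₂⟩ := ((hc m).and (hc n)).exists
    rw [show c m - c n = (x k - c n) - (x k - c m) by ring]
    exact sub_mem (Ideal.pow_le_pow_right hmn h₂) h₁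
  obtain ⟨L, hL⟩ := IsPrecomplete.prec (I := maximalIdeal S) inferInstance hcauchy
  refine ⟨L, fun N => (hc N).mono fun n hn => ?_⟩
  have := hL N
  rw [SModEq.sub_mem, smul_eq_mul, Ideal.mul_top] at this
  simpa using add_mem hn this

lemma eq_of_forall_sub_mem_pow {a b : S} (h : ∀ N, a - b ∈ maximalIdeal S ^ N) : a = b := by
  refine sub_eq_zero.mp (IsHausdorff.haus (I := maximalIdeal S) inferInstance _ fun N => ?_)
  rw [SModEq.sub_mem, smul_eq_mul, Ideal.mul_top, sub_zero]
  exact h N

omit [IsAdicComplete (maximalIdeal S) S] in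
/-- Krull intersection: an ideal of a Noetherian local ring is closed. -/
lemma mem_of_forall_mem_sup_pow [IsNoetherianRing S] {I : Ideal S} {a : S}
    (h : ∀ N, a ∈ I ⊔ maximalIdeal S ^ N) : a ∈ I := by
  rw [← Ideal.Quotient.eq_zero_iff_mem, ← Submodule.mem_bot S,
    ← Ideal.iInf_pow_smul_eq_bot_of_isLocalRing (M := S ⧸ I) (maximalIdeal S)
      (maximalIdeal.isMaximal S).ne_top, Submodule.mem_iInf]
  intro N
  obtain ⟨u, hu, v, hv, huv⟩ := Submodule.mem_sup.mp (h N)
  have : Ideal.Quotient.mk I a = v • (1 : S ⧸ I) := by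
    rw [← huv, map_add, Ideal.Quotient.eq_zero_iff_mem.mpr hu, zero_add, Algebra.smul_def, mul_one]
    rfl
  rw [this]
  exact Submodule.smul_mem_smul hv trivial

end Limit

/-- A finite level system: representations of `P₀` by matrices over `S ⧸ J n`. -/
structure LevelSystem (S : Type) [CommRing S] [IsLocalRing S] (P₀ : Type) [CommRing P₀]
    (d : ℕ) where
  /-- the relation ideals -/
  J : ℕ → Ideal S
  J_le : ∀ n, J n ≤ maximalIdeal S ^ n
  /-- the representations -/
  rep : ∀ n, P₀ →+* Matrix (Fin d) (Fin d) (S ⧸ J n)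

namespace LevelSystem

variable {S : Type} [CommRing S] [IsLocalRing S] [IsAdicComplete (maximalIdeal S) S]
  {P₀ : Type} [CommRing P₀] {d : ℕ}
  (hfin : ∀ N, Finite (S ⧸ maximalIdeal S ^ N)) (L : LevelSystem S P₀ d)

/-- A chosen lift of a level representation. -/
def liftRep (n : ℕ) (f : P₀) (i j : Fin d) : S :=
  Quotient.out (L.rep n f i j)

omit [IsAdicComplete (maximalIdeal S) S] in
lemma mk_liftRep (n : ℕ) (f : P₀) (i j : Fin d) :
    Ideal.Quotient.mk (L.J n) (L.liftRep n f i j) = L.rep n f i j :=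
  Quotient.out_eq _

/-- The underlying function of the patched representation. -/
def patchFun (f : P₀) : Matrix (Fin d) (Fin d) S :=
  Matrix.of fun i j => (exists_limit hfin fun n => L.liftRep n f i j).choose

lemma patchFun_spec (f : P₀) (N : ℕ) : ∀ᶠ n in (patchFilter : Filter ℕ),
    N ≤ n ∧ ∀ i j, L.liftRep n f i j - L.patchFun hfin f i j ∈ maximalIdeal S ^ N :=
  (eventually_ge_patchFilter N).and (eventually_all.mpr fun i => eventually_all.mpr fun j =>
    (exists_limit hfin fun n => L.liftRep n f i j).choose_spec N)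

lemma sub_patchFun_mem {f : P₀} {N n : ℕ} (hn : N ≤ n)
    (h : ∀ i j, L.liftRep n f i j - L.patchFun hfin f i j ∈ maximalIdeal S ^ N)
    {x : S} {i j : Fin d} (hx : Ideal.Quotient.mk (L.J n) x = L.rep n f i j) :
    x - L.patchFun hfin f i j ∈ maximalIdeal S ^ N := by
  have : x - L.liftRep n f i j ∈ maximalIdeal S ^ N :=
    (L.J_le n).trans (Ideal.pow_le_pow_right hn) (Ideal.Quotient.eq.mp (hx.trans (L.mk_liftRep ..).symm))
  simpa using add_mem this (h i j)

/-- Master transfer lemma: if at almost every level `G` holds of any lifts, the limit matrix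
differs from the prescribed one by elements of `𝔪 ^ N`. -/
lemma patchFun_eq {f : P₀} {B : Matrix (Fin d) (Fin d) S}
    (h : ∀ N, ∃ᶠ n in (patchFilter : Filter ℕ), N ≤ n ∧ ∀ i j,
      L.liftRep n f i j - B i j ∈ maximalIdeal S ^ N) :
    L.patchFun hfin f = B := by
  ext i j
  refine eq_of_forall_sub_mem_pow fun N => ?_
  obtain ⟨n, ⟨-, h₁⟩, -, h₂⟩ := ((h N).and_eventually (L.patchFun_spec hfin f N)).exists
  simpa using sub_mem (h₁ i j) (h₂ i j)

/-- The patched representation. -/
def patch : P₀ →+* Matrix (Fin d) (Fin d) S where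
  toFun := L.patchFun hfin
  map_one' := L.patchFun_eq hfin fun N => ((eventually_ge_patchFilter N).mono fun n hn =>
    ⟨hn, fun i j => (L.J_le n).trans (Ideal.pow_le_pow_right hn) <| Ideal.Quotient.eq.mp <| by
      rw [L.mk_liftRep, map_one, Matrix.one_apply, Matrix.one_apply]
      split <;> simp⟩).frequently
  map_zero' := L.patchFun_eq hfin fun N => ((eventually_ge_patchFilter N).mono fun n hn =>
    ⟨hn, fun i j => (L.J_le n).trans (Ideal.pow_le_pow_right hn) <| Ideal.Quotient.eq.mp <| by
      rw [L.mk_liftRep, map_zero, Matrix.zero_apply, Matrix.zero_apply, map_zero]⟩).frequently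
  map_add' f g := L.patchFun_eq hfin fun N =>
    (((L.patchFun_spec hfin f N).and (L.patchFun_spec hfin g N)).mono
      fun n ⟨⟨hn, hf⟩, _, hg⟩ => ⟨hn, fun i j => by
        have h0 : L.liftRep n (f + g) i j - (L.liftRep n f i j + L.liftRep n g i j) ∈
            maximalIdeal S ^ N :=
          (L.J_le n).trans (Ideal.pow_le_pow_right hn) <| Ideal.Quotient.eq.mp <| by
            rw [map_add, L.mk_liftRep, L.mk_liftRep, L.mk_liftRep, map_add, Matrix.add_apply]
        convert add_mem h0 (add_mem (hf i j) (hg i j)) using 1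
        rw [Matrix.add_apply]
        ring⟩).frequently
  map_mul' f g := L.patchFun_eq hfin fun N =>
    (((L.patchFun_spec hfin f N).and (L.patchFun_spec hfin g N)).mono
      fun n ⟨⟨hn, hf⟩, _, hg⟩ => ⟨hn, fun i j => by
        have h0 : L.liftRep n (f * g) i j - ∑ k, L.liftRep n f i k * L.liftRep n g k j ∈
            maximalIdeal S ^ N :=
          (L.J_le n).trans (Ideal.pow_le_pow_right hn) <| Ideal.Quotient.eq.mp <| by
            rw [map_sum, L.mk_liftRep, map_mul, Matrix.mul_apply]
            exact Finset.sum_congr rfl fun k _ => by rw [map_mul, L.mk_liftRep, L.mk_liftRep]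
        have h1 : ∀ k, L.liftRep n f i k * L.liftRep n g k j -
            L.patchFun hfin f i k * L.patchFun hfin g k j ∈ maximalIdeal S ^ N := fun k => by
          rw [show L.liftRep n f i k * L.liftRep n g k j -
            L.patchFun hfin f i k * L.patchFun hfin g k j =
              (L.liftRep n f i k - L.patchFun hfin f i k) * L.liftRep n g k j +
                L.patchFun hfin f i k * (L.liftRep n g k j - L.patchFun hfin g k j) by ring]
          exact add_mem (Ideal.mul_mem_right _ _ (hf i k)) (Ideal.mul_mem_left _ _ (hg k j))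
        convert add_mem h0 (Submodule.sum_mem _ fun k (_ : k ∈ Finset.univ) => h1 k) using 1
        rw [Matrix.mul_apply, Finset.sum_sub_distrib]
        ring⟩).frequently

/-- The limit is close to any lift of almost every level. -/
lemma patch_spec (f : P₀) (N : ℕ) : ∀ᶠ n in (patchFilter : Filter ℕ), N ≤ n ∧
    ∀ i j (x : S), Ideal.Quotient.mk (L.J n) x = L.rep n f i j →
      x - L.patch hfin f i j ∈ maximalIdeal S ^ N :=
  (L.patchFun_spec hfin f N).mono fun _n hn =>
    ⟨hn.1, fun _ _ _ hx => L.sub_patchFun_mem hfin hn.1 hn.2 hx⟩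

/-- Exact relations pass to the limit. -/
lemma patch_eq_zero {f : P₀} (h : ∀ᶠ n in atTop, L.rep n f = 0) : L.patch hfin f = 0 := by
  ext i j
  refine eq_of_forall_sub_mem_pow fun N => ?_
  have hh : ∀ᶠ n in (patchFilter : Filter ℕ), L.rep n f = 0 := by
    obtain ⟨N₀, hN₀⟩ := eventually_atTop.mp h
    exact (eventually_ge_patchFilter N₀).mono hN₀
  obtain ⟨n, ⟨-, hn⟩, h0⟩ := ((L.patch_spec hfin f N).and hh).exists
  have := hn i j 0 (by rw [map_zero, h0, Matrix.zero_apply])
  simpa using neg_mem this

/-- Congruences modulo an ideal pass to the limit: if at every level the difference of two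
representations lies in `I`, the same holds for the patched ones. -/
lemma patch_sub_mem [IsNoetherianRing S] {Q₀ : Type} [CommRing Q₀] (L' : LevelSystem S Q₀ d)
    (I : Ideal S) {f : P₀} {g : Q₀}
    (h : ∀ n i j (x y : S), Ideal.Quotient.mk (L.J n) x = L.rep n f i j →
      Ideal.Quotient.mk (L'.J n) y = L'.rep n g i j →
      x - y ∈ I ⊔ (L.J n ⊔ L'.J n)) (i j : Fin d) :
    L.patch hfin f i j - L'.patch hfin g i j ∈ I := by
  refine mem_of_forall_mem_sup_pow fun N => ?_
  obtain ⟨n, ⟨hn, h₁⟩, -, h₂⟩ := ((L.patch_spec hfin f N).and (L'.patch_spec hfin g N)).exists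
  have e₁ := h₁ i j _ (L.mk_liftRep n f i j)
  have e₂ := h₂ i j _ (L'.mk_liftRep n g i j)
  have e := h n i j _ _ (L.mk_liftRep n f i j) (L'.mk_liftRep n g i j)
  have hle : I ⊔ (L.J n ⊔ L'.J n) ≤ I ⊔ maximalIdeal S ^ N :=
    sup_le_sup_left (sup_le ((L.J_le n).trans (Ideal.pow_le_pow_right hn))
      ((L'.J_le n).trans (Ideal.pow_le_pow_right hn))) _
  convert add_mem (hle e) (Ideal.mem_sup_right (sub_mem e₂ e₁)) using 1
  ring

/-- Congruence to a fixed matrix modulo an ideal passes to the limit. -/
lemma patch_sub_const_mem [IsNoetherianRing S] (I : Ideal S) {f : P₀}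
    (B : Matrix (Fin d) (Fin d) S)
    (h : ∀ n i j (x : S), Ideal.Quotient.mk (L.J n) x = L.rep n f i j →
      x - B i j ∈ I ⊔ L.J n) (i j : Fin d) :
    L.patch hfin f i j - B i j ∈ I := by
  refine mem_of_forall_mem_sup_pow fun N => ?_
  obtain ⟨n, hn, h₁⟩ := (L.patch_spec hfin f N).exists
  have e₁ := h₁ i j _ (L.mk_liftRep n f i j)
  have hle : I ⊔ L.J n ≤ I ⊔ maximalIdeal S ^ N :=
    sup_le_sup_left ((L.J_le n).trans (Ideal.pow_le_pow_right hn)) _
  convert sub_mem (hle (h n i j _ (L.mk_liftRep n f i j))) (Ideal.mem_sup_right e₁) using 1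
  ring

section Scalars

variable [IsLocalRing P₀]

omit [IsAdicComplete (maximalIdeal S) S] in
/-- A ring map from a local ring to a finite ring kills a uniform power of the maximal ideal. -/
lemma map_pow_card_eq_bot {C : Type} [Ring C] [Finite C] (h : P₀ →+* C) {x : P₀}
    (hx : x ∈ maximalIdeal P₀ ^ Nat.card C) : h x = 0 := by
  classical
  have : Finite h.range := inferInstance
  have hle : Nat.card h.range ≤ Nat.card C := Finite.card_subtype_le _
  let q : P₀ →+* h.range := h.rangeRestrict
  have hq : Function.Surjective q := h.rangeRestrict_surjective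
  let : CommRing h.range :=
    { (inferInstance : Ring h.range) with
      mul_comm := fun a b => by
        obtain ⟨a, rfl⟩ := hq a
        obtain ⟨b, rfl⟩ := hq b
        rw [← map_mul, mul_comm, map_mul] }
  let q' : P₀ →+* h.range :=
    { toFun := q, map_one' := q.map_one, map_mul' := q.map_mul, map_zero' := q.map_zero,
      map_add' := q.map_add }
  set 𝔞 := (maximalIdeal P₀).map q' with h𝔞
  have hjac : 𝔞 ≤ (⊥ : Ideal h.range).jacobson := by
    rw [h𝔞, Ideal.jacobson, le_sInf_iff]
    rintro J ⟨-, hJ⟩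
    rw [Ideal.map_le_iff_le_comap]
    exact (IsLocalRing.eq_maximalIdeal
      (Ideal.comap_isMaximal_of_surjective q' hq (H := hJ))).ge
  have key : ∀ i, 𝔞 ^ i = ⊥ ∨ Nat.card (𝔞 ^ i : Ideal h.range) + i ≤ Nat.card h.range := by
    intro i
    induction i with
    | zero => exact Or.inr (by simpa using Finite.card_subtype_le _)
    | succ i ih =>
      rcases ih with ih | ih
      · exact Or.inl (by rw [pow_succ, ih, Ideal.bot_mul])
      · by_cases heq : 𝔞 ^ (i + 1) = 𝔞 ^ i
        · refine Or.inl ?_
          rw [heq]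
          refine Submodule.eq_bot_of_le_smul_of_le_jacobson_bot 𝔞 (𝔞 ^ i)
            (IsNoetherian.noetherian _) ?_ hjac
          rw [smul_eq_mul, ← pow_succ', heq]
        · refine Or.inr ?_
          have hlt : 𝔞 ^ (i + 1) < 𝔞 ^ i := lt_of_le_of_ne (Ideal.pow_le_pow_right (by omega)) heq
          have : Nat.card (𝔞 ^ (i + 1) : Ideal h.range) < Nat.card (𝔞 ^ i : Ideal h.range) :=
            Set.ncard_lt_ncard (SetLike.coe_ssubset_coe.mpr hlt) (Set.toFinite _)
          omega
  have hbot : 𝔞 ^ Nat.card h.range = ⊥ := by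
    rcases key (Nat.card h.range) with h0 | h0
    · exact h0
    · exfalso
      have : 0 < Nat.card (𝔞 ^ Nat.card h.range : Ideal h.range) := Nat.card_pos
      omega
  have hm : q' x ∈ 𝔞 ^ Nat.card h.range := by
    rw [h𝔞, ← Ideal.map_pow]
    exact Ideal.mem_map_of_mem _ (Ideal.pow_le_pow_right hle hx)
  rw [hbot, Ideal.mem_bot] at hm
  exact congrArg Subtype.val hm

omit [IsAdicComplete (maximalIdeal S) S] in
include hfin in
lemma exists_pow_rep_mem (N : ℕ) : ∃ K, ∀ n, N ≤ n → ∀ g ∈ maximalIdeal P₀ ^ K, ∀ i j (x : S),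
    Ideal.Quotient.mk (L.J n) x = L.rep n g i j → x ∈ maximalIdeal S ^ N := by
  have := hfin N
  refine ⟨Nat.card (Matrix (Fin d) (Fin d) (S ⧸ maximalIdeal S ^ N)), fun n hn g hg i j x hx => ?_⟩
  have hle : L.J n ≤ maximalIdeal S ^ N := (L.J_le n).trans (Ideal.pow_le_pow_right hn)
  have h0 := map_pow_card_eq_bot ((Ideal.Quotient.factor hle).mapMatrix.comp (L.rep n)) hg
  have h1 := congrFun (congrFun h0 i) j
  simp only [RingHom.comp_apply, RingHom.mapMatrix_apply, Matrix.map_apply, Matrix.zero_apply,
    ← hx, Ideal.Quotient.factor_mk] at h1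
  exact Ideal.Quotient.eq_zero_iff_mem.mp h1

variable [IsAdicComplete (maximalIdeal P₀) P₀] (hfinP : ∀ N, Finite (P₀ ⧸ maximalIdeal P₀ ^ N))

include hfinP in
/-- Elements realised at every level are realised in the limit. -/
theorem exists_patch_eq (B : Matrix (Fin d) (Fin d) S)
    (h : ∀ n, ∃ f, L.rep n f = B.map (Ideal.Quotient.mk (L.J n))) :
    ∃ F, L.patch hfin F = B := by
  choose f hf using h
  obtain ⟨F, hF⟩ := exists_limit hfinP f
  refine ⟨F, L.patchFun_eq hfin fun N => ?_⟩
  obtain ⟨K, hK⟩ := L.exists_pow_rep_mem hfin N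
  refine (((eventually_ge_patchFilter N).and (hF K)).mono fun n ⟨hn, hFn⟩ =>
    ⟨hn, fun i j => ?_⟩).frequently
  refine hK n hn (F - f n) (by simpa using neg_mem hFn) i j _ ?_
  rw [map_sub, L.mk_liftRep, map_sub, hf, Matrix.sub_apply, Matrix.map_apply]

include hfinP in
/-- Congruences which hold at every level with varying witnesses in a fixed ideal hold in the
limit. -/
theorem exists_mem_patch_eq [IsNoetherianRing P₀] (I : Ideal P₀) {w : P₀}
    (h : ∀ n, ∃ f ∈ I, L.rep n (w - f) = 0) : ∃ F ∈ I, L.patch hfin (w - F) = 0 := by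
  choose f hfI hf using h
  obtain ⟨F, hF⟩ := exists_limit hfinP f
  refine ⟨F, mem_of_forall_mem_sup_pow fun N => ?_, L.patchFun_eq hfin fun N => ?_⟩
  · obtain ⟨n, hn⟩ := (hF N).exists
    rw [show F = f n - (f n - F) by ring]
    exact sub_mem (Ideal.mem_sup_left (hfI n)) (Ideal.mem_sup_right hn)
  · obtain ⟨K, hK⟩ := L.exists_pow_rep_mem hfin N
    refine (((eventually_ge_patchFilter N).and (hF K)).mono fun n ⟨hn, hFn⟩ =>
      ⟨hn, fun i j => ?_⟩).frequently
    refine hK n hn (f n - F) hFn i j _ ?_
    rw [Matrix.zero_apply, sub_zero, L.mk_liftRep, show w - F = (w - f n) + (f n - F) by ring,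
      map_add, hf, zero_add]

end Scalars

/-- The patched module `S ^ d` as a `P₀`-module. -/
@[reducible]
def patchModule : Module P₀ (Fin d → S) :=
  Module.compHom _ ((Matrix.toLinAlgEquiv' (R := S) (n := Fin d)).toRingEquiv.toRingHom.comp
    (L.patch hfin))

lemma patchModule_smul_def (f : P₀) (v : Fin d → S) :
    letI := L.patchModule hfin
    f • v = (L.patch hfin f).mulVec v :=
  Matrix.toLinAlgEquiv'_apply _ _

/-- If all scalars of `S` come from `P₀` in the limit, the patched module is finite over `P₀`. -/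
theorem patchModule_finite (hscal : ∀ s : S, ∃ F, L.patch hfin F = Matrix.scalar (Fin d) s) :
    letI := L.patchModule hfin
    Module.Finite P₀ (Fin d → S) := by
  let := L.patchModule hfin
  choose F hF using hscal
  refine ⟨Submodule.fg_def.mpr ⟨Set.range fun i => Pi.single i (1 : S), Set.finite_range _,
    eq_top_iff.mpr fun v _ => ?_⟩⟩
  have : v = ∑ i, F (v i) • (Pi.single i (1 : S) : Fin d → S) := by
    conv_lhs => rw [← Finset.univ_sum_single v]
    refine Finset.sum_congr rfl fun i _ => ?_
    rw [L.patchModule_smul_def hfin, hF, Matrix.scalar_apply]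
    ext j
    rw [Matrix.mulVec_diagonal]
    by_cases h : j = i
    · subst h; simp
    · simp [Pi.single_eq_of_ne h]
  rw [this]
  exact Submodule.sum_mem _ fun i _ => Submodule.smul_mem _ _ (Submodule.subset_span ⟨i, rfl⟩)

/-- Sequences acting as a weakly regular sequence of scalars are weakly regular on the patched
module. -/
theorem patchModule_isWeaklyRegular {fs : List P₀} {ss : List S}
    (h : List.Forall₂ (fun f s => L.patch hfin f = Matrix.scalar (Fin d) s) fs ss)
    (hreg : RingTheory.Sequence.IsWeaklyRegular S ss) :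
    letI := L.patchModule hfin
    RingTheory.Sequence.IsWeaklyRegular (Fin d → S) fs := by
  let := L.patchModule hfin
  refine ((AddEquiv.refl (Fin d → S)).isWeaklyRegular_congr ?_).mpr (isWeaklyRegular_pi ss hreg)
  refine h.imp fun f s hfs v => ?_
  show f • v = s • v
  rw [L.patchModule_smul_def hfin, hfs, Matrix.scalar_apply]
  ext j
  simp [Matrix.mulVec_diagonal]

end LevelSystem

end FLTA.Patching
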