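import Fermat.Agent.Patching.LimitModule

/-!
Patching maps between level systems (level raising maps `i`, `j`): limits of families of
rectangular matrices, taken along the same ultrafilter as the representations.
-/

set_option autoImplicit false

noncomputable section

namespace FLTA.Patching

open IsLocalRing

namespace LevelSystem

variable {S : Type} [CommRing S] [IsLocalRing S] [IsAdicComplete (maximalIdeal S) S]
  (hfin : ∀ N, Finite (S ⧸ maximalIdeal S ^ N))
  {J : ℕ → Ideal S} (hJ : ∀ n, J n ≤ maximalIdeal S ^ n) {d d' : ℕ}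

/-- The limit of a family of rectangular matrices over the quotients `S ⧸ J n`. -/
def limMatrix (F : ∀ n, Matrix (Fin d') (Fin d) (S ⧸ J n)) : Matrix (Fin d') (Fin d) S :=
  Matrix.of fun i j => (exists_limit hfin fun n => Quotient.out (F n i j)).choose

include hJ in
lemma limMatrix_spec (F : ∀ n, Matrix (Fin d') (Fin d) (S ⧸ J n)) (N : ℕ) :
    ∀ᶠ n in (patchFilter : Filter ℕ), N ≤ n ∧ ∀ i j (x : S),
      Ideal.Quotient.mk (J n) x = F n i j → x - limMatrix hfin F i j ∈ maximalIdeal S ^ N := by
  refine ((eventually_ge_patchFilter N).and (Filter.eventually_all.mpr fun i =>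
    Filter.eventually_all.mpr fun j =>
      (exists_limit hfin fun n => Quotient.out (F n i j)).choose_spec N)).mono
        fun n hn => ⟨hn.1, fun i j x hx => ?_⟩
  have h0 : x - Quotient.out (F n i j) ∈ maximalIdeal S ^ N :=
    (hJ n).trans (Ideal.pow_le_pow_right hn.1)
      (Ideal.Quotient.eq.mp (hx.trans (Quotient.out_eq (F n i j)).symm))
  simpa [limMatrix] using add_mem h0 (hn.2 i j)

include hJ in
/-- Congruence of all levels to a fixed matrix modulo an ideal passes to the limit. -/
lemma limMatrix_sub_const_mem [IsNoetherianRing S] (I : Ideal S)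
    (F : ∀ n, Matrix (Fin d') (Fin d) (S ⧸ J n)) (B : Matrix (Fin d') (Fin d) S)
    (h : ∀ n i j (x : S), Ideal.Quotient.mk (J n) x = F n i j → x - B i j ∈ I ⊔ J n)
    (i : Fin d') (j : Fin d) : limMatrix hfin F i j - B i j ∈ I := by
  refine mem_of_forall_mem_sup_pow fun N => ?_
  obtain ⟨n, hn, h₁⟩ := (limMatrix_spec hfin hJ F N).exists
  have e₁ := h₁ i j _ (Quotient.out_eq _)
  have hle : I ⊔ J n ≤ I ⊔ maximalIdeal S ^ N :=
    sup_le_sup_left ((hJ n).trans (Ideal.pow_le_pow_right hn)) _
  convert sub_mem (hle (h n i j _ (Quotient.out_eq _))) (Ideal.mem_sup_right e₁) using 1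
  ring

include hJ in
/-- Limits of products of two families. -/
lemma limMatrix_mul {d'' : ℕ} (F : ∀ n, Matrix (Fin d'') (Fin d') (S ⧸ J n))
    (G : ∀ n, Matrix (Fin d') (Fin d) (S ⧸ J n)) :
    limMatrix hfin (fun n => F n * G n) = limMatrix hfin F * limMatrix hfin G := by
  ext i j
  refine eq_of_forall_sub_mem_pow fun N => ?_
  obtain ⟨n, ⟨-, h₀⟩, ⟨-, h₁⟩, -, h₂⟩ := ((limMatrix_spec hfin hJ (fun n => F n * G n) N).and
    ((limMatrix_spec hfin hJ F N).and (limMatrix_spec hfin hJ G N))).exists
  have e₀ := h₀ i j (∑ k, Quotient.out (F n i k) * Quotient.out (G n k j)) (by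
    rw [map_sum, Matrix.mul_apply]
    refine Finset.sum_congr rfl fun k _ => ?_
    rw [map_mul]
    exact congrArg₂ (· * ·) (Quotient.out_eq _) (Quotient.out_eq _))
  have e₁ : ∀ k, Quotient.out (F n i k) * Quotient.out (G n k j) -
      limMatrix hfin F i k * limMatrix hfin G k j ∈ maximalIdeal S ^ N := fun k => by
    rw [show Quotient.out (F n i k) * Quotient.out (G n k j) -
      limMatrix hfin F i k * limMatrix hfin G k j =
        (Quotient.out (F n i k) - limMatrix hfin F i k) * Quotient.out (G n k j) +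
          limMatrix hfin F i k * (Quotient.out (G n k j) - limMatrix hfin G k j) by ring]
    exact add_mem (Ideal.mul_mem_right _ _ (h₁ i k _ (Quotient.out_eq _)))
      (Ideal.mul_mem_left _ _ (h₂ k j _ (Quotient.out_eq _)))
  convert sub_mem (Submodule.sum_mem _ fun k (_ : k ∈ Finset.univ) => e₁ k) e₀ using 1
  rw [Matrix.mul_apply, Finset.sum_sub_distrib]
  ring

/-- The limit of the matrices of a level system is the patched representation. -/
lemma limMatrix_rep {P₀ : Type} [CommRing P₀] (L : LevelSystem S P₀ d) (f : P₀) :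
    limMatrix hfin (fun n => L.rep n f) = L.patch hfin f := by
  ext i j
  refine eq_of_forall_sub_mem_pow fun N => ?_
  obtain ⟨n, ⟨-, h₁⟩, -, h₂⟩ :=
    ((limMatrix_spec hfin L.J_le (fun n => L.rep n f) N).and (L.patch_spec hfin f N)).exists
  have e₁ := h₁ i j _ (L.mk_liftRep n f i j)
  have e₂ := h₂ i j _ (L.mk_liftRep n f i j)
  convert sub_mem e₂ e₁ using 1
  ring

include hJ in
/-- Intertwiners at every level intertwine the patched representations. -/
lemma limMatrix_intertwines {P₀ : Type} [CommRing P₀]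
    {rep : ∀ n, P₀ →+* Matrix (Fin d) (Fin d) (S ⧸ J n)}
    {rep' : ∀ n, P₀ →+* Matrix (Fin d') (Fin d') (S ⧸ J n)}
    (F : ∀ n, Matrix (Fin d') (Fin d) (S ⧸ J n)) (f : P₀)
    (h : ∀ n, F n * rep n f = rep' n f * F n) :
    limMatrix hfin F * (LevelSystem.mk J hJ rep).patch hfin f =
      (LevelSystem.mk J hJ rep').patch hfin f * limMatrix hfin F := by
  rw [← limMatrix_rep hfin (LevelSystem.mk J hJ rep) f,
    ← limMatrix_rep hfin (LevelSystem.mk J hJ rep') f, ← limMatrix_mul hfin hJ,
    ← limMatrix_mul hfin hJ]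
  exact congrArg (limMatrix hfin) (funext h)

end LevelSystem

end FLTA.Patching
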