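import Fermat.Agent.Patching.Limit
import Mathlib.LinearAlgebra.Matrix.Basis
import Mathlib.RingTheory.OrzechProperty
import Mathlib.RingTheory.FiniteType
import Mathlib.RingTheory.Nakayama

/-!
Level systems from modules: free modules over `S ⧸ J` with a compatible basis.
-/

set_option autoImplicit false

noncomputable section

namespace FLTA.Patching

open IsLocalRing

section Basis

variable {R : Type} [CommRing R] [IsLocalRing R] {M : Type} [AddCommGroup M] [Module R M]

/-- In a free module of rank `d` any lifts of generators modulo `I ⊆ 𝔪` form a basis. -/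
theorem exists_basis_of_lifts {d : ℕ} (b₀ : Module.Basis (Fin d) R M) {I : Ideal R}
    (hI : I ≤ maximalIdeal R) (v : Fin d → M)
    (hv : ∀ m : M, ∃ c : Fin d → R, m - ∑ i, c i • v i ∈ I • (⊤ : Submodule R M)) :
    ∃ b : Module.Basis (Fin d) R M, ⇑b = v := by
  have : Module.Finite R M := Module.Finite.of_basis b₀
  have htop : ⊤ ≤ Submodule.span R (Set.range v) := by
    refine Submodule.le_of_le_smul_of_le_jacobson_bot Module.Finite.fg_top
      (hI.trans (maximalIdeal_le_jacobson _)) fun m _ => ?_
    obtain ⟨c, hc⟩ := hv m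
    refine Submodule.mem_sup.mpr ⟨∑ i, c i • v i,
      Submodule.sum_mem _ fun i _ => Submodule.smul_mem _ _ (Submodule.subset_span ⟨i, rfl⟩),
      m - ∑ i, c i • v i, hc, add_sub_cancel _ _⟩
  let f : M →ₗ[R] M := b₀.constr R v
  have hf : Function.Surjective f := by
    rw [← LinearMap.range_eq_top, Module.Basis.constr_range]
    exact eq_top_iff.mpr htop
  let e := LinearEquiv.ofBijective f ⟨OrzechProperty.injective_of_surjective_endomorphism f hf, hf⟩
  exact ⟨b₀.map e, funext fun i => by
    rw [Module.Basis.map_apply]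
    exact b₀.constr_basis R v i⟩

end Basis

section System

variable {S : Type} [CommRing S] [IsLocalRing S] {P₀ : Type} [CommRing P₀] {d : ℕ}

/-- The level system of a family of free modules with given bases. -/
def LevelSystem.ofModules (J : ℕ → Ideal S) (hJ : ∀ n, J n ≤ maximalIdeal S ^ n)
    (N : ℕ → Type) [∀ n, AddCommGroup (N n)] [∀ n, Module (S ⧸ J n) (N n)]
    (b : ∀ n, Module.Basis (Fin d) (S ⧸ J n) (N n))
    (act : ∀ n, P₀ →+* Module.End (S ⧸ J n) (N n)) : LevelSystem S P₀ d where
  J := J
  J_le := hJ
  rep n := (LinearMap.toMatrixAlgEquiv (b n)).toRingEquiv.toRingHom.comp (act n)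

variable {J : ℕ → Ideal S} {hJ : ∀ n, J n ≤ maximalIdeal S ^ n} {N : ℕ → Type}
  [∀ n, AddCommGroup (N n)] [∀ n, Module (S ⧸ J n) (N n)]
  {b : ∀ n, Module.Basis (Fin d) (S ⧸ J n) (N n)}
  {act : ∀ n, P₀ →+* Module.End (S ⧸ J n) (N n)}

lemma LevelSystem.ofModules_rep_apply (n : ℕ) (f : P₀) (i j : Fin d) :
    (LevelSystem.ofModules J hJ N b act).rep n f i j = (b n).repr (act n f (b n j)) i :=
  LinearMap.toMatrixAlgEquiv_apply (b n) (act n f) i j

/-- An element killing every level module is zero in every level matrix. -/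
lemma LevelSystem.ofModules_rep_eq_zero {n : ℕ} {f : P₀} (h : act n f = 0) :
    (LevelSystem.ofModules J hJ N b act).rep n f = 0 := by
  show (LinearMap.toMatrixAlgEquiv (b n)) (act n f) = 0
  rw [h, map_zero]

/-- A scalar action gives a scalar matrix. -/
lemma LevelSystem.ofModules_rep_scalar {n : ℕ} {f : P₀} {s : S}
    (h : ∀ x : N n, act n f x = Ideal.Quotient.mk (J n) s • x) :
    (LevelSystem.ofModules J hJ N b act).rep n f =
      (Matrix.scalar (Fin d) s).map (Ideal.Quotient.mk (J n)) := by
  ext i j
  rw [LevelSystem.ofModules_rep_apply, h, map_smul, Matrix.map_apply, Matrix.scalar_apply,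
    Matrix.diagonal_apply, Finsupp.smul_apply, Module.Basis.repr_self, Finsupp.single_apply]
  by_cases hij : i = j
  · subst hij
    rw [if_pos rfl, if_pos rfl]
    exact mul_one _
  · rw [if_neg (Ne.symm hij), if_neg hij, map_zero]
    exact mul_zero _

/-- If the action of `f` on a level module has image inside `I • N`, its matrix entries lie in
`I`. -/
lemma LevelSystem.ofModules_mem_of_range {n : ℕ} {f : P₀} {I : Ideal S}
    (h : ∀ x : N n, act n f x ∈
      (I.map (Ideal.Quotient.mk (J n))) • (⊤ : Submodule (S ⧸ J n) (N n)))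
    {i j : Fin d} {x : S}
    (hx : Ideal.Quotient.mk (J n) x = (LevelSystem.ofModules J hJ N b act).rep n f i j) :
    x ∈ I ⊔ J n := by
  have hmem : ∀ y ∈ (I.map (Ideal.Quotient.mk (J n))) • (⊤ : Submodule (S ⧸ J n) (N n)),
      (b n).repr y i ∈ I.map (Ideal.Quotient.mk (J n)) := by
    intro y hy
    refine Submodule.smul_induction_on hy ?_ ?_
    · intro s hs z _
      rw [map_smul, Finsupp.smul_apply, smul_eq_mul]
      exact Ideal.mul_mem_right _ _ hs
    · intro u v hu hv
      rw [map_add, Finsupp.add_apply]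
      exact add_mem hu hv
  have := hmem _ (h (b n j))
  rw [← LevelSystem.ofModules_rep_apply (hJ := hJ) (act := act), ← hx, ← Ideal.mem_comap,
    Ideal.comap_map_of_surjective _ Ideal.Quotient.mk_surjective, ← RingHom.ker_eq_comap_bot,
    Ideal.mk_ker] at this
  exact this

/-- A semilinear map matching bases transports matrices: if `g : N n → W` sends the basis
vector `b j` to `w j` and intertwines the scalars through `φ` and the action of `f` with `T`,
then the image of the level matrix under `φ` is the matrix of `T`. -/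
lemma LevelSystem.ofModules_rep_map {n : ℕ} {f : P₀} {R' : Type} [CommRing R'] {W : Type}
    [AddCommGroup W] [Module R' W] (φ : (S ⧸ J n) →+* R') (w : Module.Basis (Fin d) R' W)
    (g : N n →+ W) (hg : ∀ s x, g (s • x) = φ s • g x) (hgb : ∀ j, g (b n j) = w j)
    (T : Module.End R' W) (hT : ∀ x, g (act n f x) = T (g x)) :
    ((LevelSystem.ofModules J hJ N b act).rep n f).map φ = LinearMap.toMatrixAlgEquiv w T := by
  ext i j
  show φ ((LevelSystem.ofModules J hJ N b act).rep n f i j) = _
  rw [LinearMap.toMatrixAlgEquiv_apply, LevelSystem.ofModules_rep_apply, ← hgb, ← hT]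
  conv_rhs => rw [← (b n).sum_repr (act n f (b n j)), map_sum]
  simp only [hg, hgb, map_sum, map_smul, Module.Basis.repr_self, Finsupp.smul_single,
    smul_eq_mul, mul_one, Finsupp.coe_finsetSum, Finset.sum_apply]
  rw [Finset.sum_eq_single i]
  · simp
  · intro k _ hk
    simp [Finsupp.single_eq_of_ne (Ne.symm hk)]
  · simp

end System

end FLTA.Patching
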