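import Mathlib.RingTheory.LocalRing.MaximalIdeal.Basic
import Mathlib.RingTheory.Nakayama
import Mathlib.RingTheory.Ideal.Operations
import Mathlib.RingTheory.Jacobson.Ideal
import Mathlib.Tactic.LinearCombination

/-!
Extra sites: at a prime of unipotent inertia and unramified residual representation, few
elements kill all local coordinates up to radical modulo `ϖ`.

`N = ρ(τ) - 1 = [[x, y], [z, -x]]` with `x² + y z = 0` and `Φ N = q N Φ`.
-/

set_option autoImplicit false

namespace FLTA.Patching

open IsLocalRing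

variable {A : Type} [CommRing A] [IsLocalRing A]

omit [IsLocalRing A] in
lemma mem_radical_of_sq_mem {I : Ideal A} {u : A} (h : u * u ∈ I) : u ∈ I.radical :=
  ⟨2, by rwa [pow_two]⟩

/-- Scalar residual Frobenius `Φ = s + [[a, b], [c, -a]]`; the three elements are `y + a`, `b + z`,
`c + x`. The dichotomy holds for `q ∈ ℕ` as soon as `I` contains the uniformiser. -/
theorem site_scalar_radical (q s : A) (x y z a b c : A) (I : Ideal A) (h2 : IsUnit (2 : A))
    (hq : q - 1 ∈ I ∨ IsUnit ((q - 1) * s))
    (hcoord : ∀ e ∈ [x, y, z, a, b, c], e ∈ maximalIdeal A)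
    (hsq : x * x + y * z ∈ I)
    (h11 : q * (x * (s + a) + y * c) - ((s + a) * x + b * z) ∈ I)
    (h12 : q * (x * b + y * (s - a)) - ((s + a) * y - b * x) ∈ I)
    (h21 : q * (z * (s + a) - x * c) - (c * x + (s - a) * z) ∈ I)
    (h1 : y + a ∈ I) (hbz : b + z ∈ I) (hcx : c + x ∈ I) :
    ∀ e ∈ [x, y, z, a, b, c], e ∈ I.radical := by
  simp only [List.forall_mem_cons] at hcoord
  obtain ⟨hx, hy, hz, ha, hb, hc, -⟩ := hcoord
  suffices h : x ∈ I.radical ∧ y ∈ I.radical ∧ z ∈ I.radical by
    obtain ⟨hx', hy', hz'⟩ := h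
    simp only [List.forall_mem_cons, List.not_mem_nil, false_imp_iff, implies_true, and_true]
    refine ⟨hx', hy', hz', ?_, ?_, ?_⟩
    · rw [show a = (y + a) - y by ring]; exact sub_mem (Ideal.le_radical h1) hy'
    · rw [show b = (b + z) - z by ring]; exact sub_mem (Ideal.le_radical hbz) hz'
    · rw [show c = (c + x) - x by ring]; exact sub_mem (Ideal.le_radical hcx) hx'
  rcases hq with hq | hq
  · obtain ⟨u, hu⟩ := h2
    have half : ∀ {w : A}, (2 : A) * w ∈ I → w ∈ I := fun {w} hw => by
      have := I.mul_mem_left (↑u⁻¹ : A) hw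
      rwa [← hu, ← mul_assoc, Units.inv_mul, one_mul] at this
    have e12 : x * b - y * a ∈ I := half (by
      rw [show (2 : A) * (x * b - y * a) = (q * (x * b + y * (s - a)) - ((s + a) * y - b * x)) -
        (q - 1) * (x * b + y * (s - a)) by ring]
      exact sub_mem h12 (I.mul_mem_right _ hq))
    have e21 : z * a - x * c ∈ I := half (by
      rw [show (2 : A) * (z * a - x * c) = (q * (z * (s + a) - x * c) - (c * x + (s - a) * z)) -
        (q - 1) * (z * (s + a) - x * c) by ring]
      exact sub_mem h21 (I.mul_mem_right _ hq))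
    have e11 : y * c - z * b ∈ I := by
      rw [show y * c - z * b = (q * (x * (s + a) + y * c) - ((s + a) * x + b * z)) -
        (q - 1) * (x * (s + a) + y * c) by ring]
      exact sub_mem h11 (I.mul_mem_right _ hq)
    have hxx : x * x ∈ I := half (by
      rw [show (2 : A) * (x * x) = (z * a - x * c) + (x * x + y * z) + x * (c + x) - z * (y + a)
        by ring]
      exact sub_mem (add_mem (add_mem e21 hsq) (I.mul_mem_left _ hcx)) (I.mul_mem_left _ h1))
    have hx' : x ∈ I.radical := mem_radical_of_sq_mem hxx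
    refine ⟨hx', ?_, ?_⟩
    · refine Ideal.radical_idem I ▸ mem_radical_of_sq_mem ?_
      rw [show y * y = (x * b - y * a) - x * (b + z) + y * (y + a) + x * z by ring]
      exact add_mem (add_mem (sub_mem (Ideal.le_radical e12)
        (Ideal.le_radical (I.mul_mem_left _ hbz))) (Ideal.le_radical (I.mul_mem_left _ h1)))
        (I.radical.mul_mem_right _ hx')
    · refine Ideal.radical_idem I ▸ mem_radical_of_sq_mem ?_
      rw [show z * z = (y * c - z * b) - y * (c + x) + z * (b + z) + x * y by ring]
      exact add_mem (add_mem (sub_mem (Ideal.le_radical e11)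
        (Ideal.le_radical (I.mul_mem_left _ hcx))) (Ideal.le_radical (I.mul_mem_left _ hbz)))
        (I.radical.mul_mem_right _ hx')
  · set K := Ideal.span ({x, y, z} : Set A) with hK
    have hxK : x ∈ K := Ideal.subset_span (by simp)
    have hyK : y ∈ K := Ideal.subset_span (by simp)
    have hzK : z ∈ K := Ideal.subset_span (by simp)
    obtain ⟨u, hu⟩ := hq
    have mk : ∀ {w t : A}, (q - 1) * s * w + t ∈ I → t ∈ maximalIdeal A • K →
        w ∈ I ⊔ maximalIdeal A • K := fun {w t} h ht => by
      have h' : (u : A) * w ∈ I ⊔ maximalIdeal A • K := by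
        rw [hu, show (q - 1) * s * w = ((q - 1) * s * w + t) - t by ring]
        exact sub_mem (Ideal.mem_sup_left h) (Ideal.mem_sup_right ht)
      have := Ideal.mul_mem_left _ (↑u⁻¹ : A) h'
      rwa [← mul_assoc, Units.inv_mul, one_mul] at this
    have mul : ∀ {p w : A}, p ∈ maximalIdeal A → w ∈ K → p * w ∈ maximalIdeal A • K :=
      fun hp hw => Submodule.smul_mem_smul hp hw
    have hle : K ≤ I ⊔ maximalIdeal A • K := by
      rw [hK, Ideal.span_le]
      rintro w (rfl | rfl | rfl)
      · refine mk (t := q * (a * w + c * y) - (a * w + b * z)) ?_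
          (sub_mem (Ideal.mul_mem_left _ _ (add_mem (mul ha hxK) (mul hc hyK)))
            (add_mem (mul ha hxK) (mul hb hzK)))
        convert h11 using 1; ring
      · refine mk (t := q * (b * x - a * w) - (a * w - b * x)) ?_
          (sub_mem (Ideal.mul_mem_left _ _ (sub_mem (mul hb hxK) (mul ha hyK)))
            (sub_mem (mul ha hyK) (mul hb hxK)))
        convert h12 using 1; ring
      · refine mk (t := q * (a * w - c * x) - (c * x - a * w)) ?_
          (sub_mem (Ideal.mul_mem_left _ _ (sub_mem (mul ha hzK) (mul hc hxK)))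
            (sub_mem (mul hc hxK) (mul ha hzK)))
        convert h21 using 1; ring
    have hKI : K ≤ I := Submodule.le_of_le_smul_of_le_jacobson_bot
      (Submodule.fg_span (Set.toFinite _)) (maximalIdeal_le_jacobson _) hle
    exact ⟨Ideal.le_radical (hKI hxK), Ideal.le_radical (hKI hyK), Ideal.le_radical (hKI hzK)⟩

/-- Non-scalar residual Frobenius, normalised to `Φ = [[0, -q], [1, t]]`; the element is
`(t - t₀) + y`. -/
theorem site_nonscalar_radical (q t t₀ : A) (x y z : A) (I : Ideal A) (hq : IsUnit q)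
    (h0 : IsUnit (t₀ * t₀ - (1 + q) * (1 + q)) ∨
      t₀ * t₀ - (1 + q) * (1 + q) ∈ I ∧ (IsUnit (2 * t₀) ∨ t₀ ∈ I))
    (hy : y ∈ maximalIdeal A) (hsq : x * x + y * z ∈ I)
    (h11 : q * (z + y) ∈ I) (h12 : q * (x * (1 + q) - t * y) ∈ I) (he : t - t₀ + y ∈ I) :
    x ∈ I.radical ∧ y ∈ I.radical ∧ z ∈ I.radical ∧ t - t₀ ∈ I.radical := by
  obtain ⟨u, hu⟩ := hq
  have unq : ∀ {w : A}, q * w ∈ I → w ∈ I := fun {w} hw => by
    have := I.mul_mem_left (↑u⁻¹ : A) hw
    rwa [← hu, ← mul_assoc, Units.inv_mul, one_mul] at this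
  have hzy := unq h11
  have hxy := unq h12
  have hxx : x * x - y * y ∈ I := by
    rw [show x * x - y * y = (x * x + y * z) - y * (z + y) by ring]
    exact sub_mem hsq (I.mul_mem_left _ hzy)
  have hP : y * y * (y * y - 2 * t₀ * y + (t₀ * t₀ - (1 + q) * (1 + q))) ∈ I := by
    rw [show y * y * (y * y - 2 * t₀ * y + (t₀ * t₀ - (1 + q) * (1 + q))) =
      -((x * (1 + q) - t * y) * (x * (1 + q) + t * y)) + (1 + q) * (1 + q) * (x * x - y * y) -
        y * y * ((t - t₀ + y) * (t + t₀ - y)) by ring]
    exact sub_mem (add_mem (neg_mem (I.mul_mem_right _ hxy)) (I.mul_mem_left _ hxx))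
      (I.mul_mem_left _ (I.mul_mem_right _ he))
  have hy' : y ∈ I.radical := by
    rw [Ideal.radical_eq_sInf, Ideal.mem_sInf]
    rintro p ⟨hp, hpp⟩
    rcases hpp.mem_or_mem (hp hP) with h | h
    · exact (hpp.mem_or_mem h).elim id id
    · rcases h0 with h0 | ⟨h0, ht⟩
      · refine absurd (Ideal.eq_top_of_isUnit_mem _ h ?_) hpp.ne_top
        by_contra hu'
        refine (show ¬ IsUnit (t₀ * t₀ - (1 + q) * (1 + q)) from ?_) h0
        rw [show t₀ * t₀ - (1 + q) * (1 + q) =
          (y * y - 2 * t₀ * y + (t₀ * t₀ - (1 + q) * (1 + q))) - y * (y - 2 * t₀) by ring]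
        exact ((maximalIdeal A).sub_mem hu' (Ideal.mul_mem_right _ _ hy) :)
      · have hyy : y * (y - 2 * t₀) ∈ p := by
          rw [show y * (y - 2 * t₀) = (y * y - 2 * t₀ * y + (t₀ * t₀ - (1 + q) * (1 + q))) -
            (t₀ * t₀ - (1 + q) * (1 + q)) by ring]
          exact sub_mem h (hp h0)
        rcases hpp.mem_or_mem hyy with h' | h'
        · exact h'
        · rcases ht with ht | ht
          · refine absurd (Ideal.eq_top_of_isUnit_mem _ h' ?_) hpp.ne_top
            by_contra hu'
            refine (show ¬ IsUnit (2 * t₀) from ?_) ht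
            rw [show 2 * t₀ = y - (y - 2 * t₀) by ring]
            exact ((maximalIdeal A).sub_mem hy hu' :)
          · rw [show y = (y - 2 * t₀) + 2 * t₀ by ring]
            exact add_mem h' (p.mul_mem_left _ (hp ht))
  refine ⟨?_, hy', ?_, ?_⟩
  · refine Ideal.radical_idem I ▸ mem_radical_of_sq_mem ?_
    rw [show x * x = (x * x - y * y) + y * y by ring]
    exact add_mem (Ideal.le_radical hxx) (I.radical.mul_mem_left _ hy')
  · rw [show z = (z + y) - y by ring]
    exact sub_mem (Ideal.le_radical hzy) hy'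
  · rw [show t - t₀ = (t - t₀ + y) - y by ring]
    exact sub_mem (Ideal.le_radical he) hy'

end FLTA.Patching
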