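import Mathlib.RingTheory.LocalRing.Basic
import Mathlib.RingTheory.Support
import Mathlib.LinearAlgebra.Matrix.ToLinearEquiv
import Fermat.Agent.Patching.Avoidance

/-!
Support raising: if `i : M → M'` and `j : M' → M` are adjoint, `j` is surjective and `j ∘ i` has
determinant in a prime `P` of the support of `M`, then `P` lies in the support of `ker j`.
-/

set_option autoImplicit false

namespace FLTA.Patching

variable {A : Type} [CommRing A] {M M' : Type} [AddCommGroup M] [Module A M]
  [AddCommGroup M'] [Module A M']

/-- Support raising, algebraic core: `K = ker j` and `C = coker i` have the same annihilator (for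
perfect pairings they are dual to each other); `h` annihilates the kernel of the "determinant",
i.e. `h • M ⊆ range (j ∘ i)`, and the range of `j ∘ i` is contained in a submodule `N` whose
quotient has `h` in every prime of its support. -/
theorem mem_support_ker {j : M' →ₗ[A] M} {i : M →ₗ[A] M'} [Module.Finite A M']
    [Module.Finite A (LinearMap.ker j)]
    (hj : Function.Surjective j)
    (hann : Module.annihilator A (LinearMap.ker j) =
      Module.annihilator A (M' ⧸ LinearMap.range i))
    {P : PrimeSpectrum A} (hP : P ∈ Module.support A (M ⧸ LinearMap.range (j.comp i))) :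
    P ∈ Module.support A (LinearMap.ker j) := by
  rw [Module.mem_support_iff_of_finite]
  by_contra hcon
  obtain ⟨s, hs, hsP⟩ := SetLike.not_le_iff_exists.mp hcon
  have hsC : s ∈ Module.annihilator A (M' ⧸ LinearMap.range i) := hann ▸ hs
  have h0 := Module.mem_support_iff'.mp hP
  obtain ⟨m, hm⟩ := h0
  refine hm s hsP ?_
  induction m using Submodule.Quotient.induction_on with
  | _ m =>
    obtain ⟨m', rfl⟩ := hj m
    have := Module.mem_annihilator.mp hsC (Submodule.Quotient.mk m')
    rw [← Submodule.Quotient.mk_smul, Submodule.Quotient.mk_eq_zero] at this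
    obtain ⟨m₀, hm₀⟩ := this
    rw [← Submodule.Quotient.mk_smul, Submodule.Quotient.mk_eq_zero]
    exact ⟨m₀, by rw [LinearMap.comp_apply, hm₀, map_smul]⟩

/-- The quotient by the range of an endomorphism of `ι → M` given by a matrix over `A` contains
every prime of the support of `M` in which the determinant lies. -/
theorem mem_support_quotient_matrix {ι : Type} [Fintype ι] [DecidableEq ι] [Module.Finite A M]
    (T : Matrix ι ι A) (F : (ι → M) →ₗ[A] (ι → M))
    (hF : ∀ v k, F v k = ∑ l, T k l • v l)
    {P : PrimeSpectrum A} (hP : P ∈ Module.support A M) (hdet : T.det ∈ P.asIdeal) :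
    P ∈ Module.support A ((ι → M) ⧸ LinearMap.range F) := by
  have := P.isPrime
  rw [Module.mem_support_iff_of_finite] at hP ⊢
  intro s hs
  by_contra hsP
  let q := Ideal.Quotient.mk P.asIdeal
  have hdet' : (T.map q).det = 0 := by
    rw [← RingHom.mapMatrix_apply, ← RingHom.map_det]
    exact Ideal.Quotient.eq_zero_iff_mem.mpr hdet
  obtain ⟨c', hc', hcT⟩ := Matrix.exists_vecMul_eq_zero_iff.mpr hdet'
  choose c hc using fun k => Ideal.Quotient.mk_surjective (c' k)
  obtain ⟨k, hk⟩ := Function.ne_iff.mp hc'
  have hTP : ∀ l, ∑ r, c r * T r l ∈ P.asIdeal := fun l => by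
    have := congrFun hcT l
    rw [← Ideal.Quotient.eq_zero_iff_mem, map_sum]
    simpa [Matrix.vecMul, dotProduct, hc, q] using this
  -- `c k * s` kills `M / P M`
  have hkill : c k * s ∈ Module.annihilator A (M ⧸ (P.asIdeal • (⊤ : Submodule A M))) :=
    Module.mem_annihilator.mpr fun m => by
      induction m using Submodule.Quotient.induction_on with
      | _ m =>
        have h0 := Module.mem_annihilator.mp hs (Submodule.Quotient.mk (Pi.single k m))
        rw [← Submodule.Quotient.mk_smul, Submodule.Quotient.mk_eq_zero] at h0
        obtain ⟨v, hv⟩ := h0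
        rw [← Submodule.Quotient.mk_smul, Submodule.Quotient.mk_eq_zero]
        have hsum : (c k * s) • m = ∑ r, c r • F v r := by
          rw [hv, Finset.sum_eq_single k]
          · simp [mul_smul]
          · intro r _ hr
            simp [Pi.single_eq_of_ne hr]
          · simp
        rw [hsum]
        simp only [hF, Finset.smul_sum, ← mul_smul]
        rw [Finset.sum_comm]
        refine Submodule.sum_mem _ fun l _ => ?_
        rw [← Finset.sum_smul]
        exact Submodule.smul_mem_smul (hTP l) Submodule.mem_top
  have hmem : c k * s ∈ P.asIdeal :=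
    mem_of_annihilator_quotient_mem M P.asIdeal (sup_le hP le_rfl) P.isPrime hkill
  rcases P.isPrime.mem_or_mem hmem with h | h
  · exact hk (by rw [← hc k]; exact Ideal.Quotient.eq_zero_iff_mem.mpr h)
  · exact hsP h

/-- Support raising: adjoint level-raising maps `i`, `j` with `j` surjective and `j ∘ i` given by
a matrix of determinant `h`: every prime of the support of `M` containing `h` is in the support
of the new part `ker j`. -/
theorem mem_support_new {ι : Type} [Fintype ι] [DecidableEq ι] [Module.Finite A M]
    [Module.Finite A M'] {j : M' →ₗ[A] (ι → M)} {i : (ι → M) →ₗ[A] M'}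
    [Module.Finite A (LinearMap.ker j)]
    (T : Matrix ι ι A) (hji : ∀ v k, j (i v) k = ∑ l, T k l • v l)
    (hj : Function.Surjective j)
    (hann : Module.annihilator A (LinearMap.ker j) =
      Module.annihilator A (M' ⧸ LinearMap.range i))
    {P : PrimeSpectrum A} (hP : P ∈ Module.support A M) (hdet : T.det ∈ P.asIdeal) :
    P ∈ Module.support A (LinearMap.ker j) :=
  mem_support_ker hj hann (mem_support_quotient_matrix T (j.comp i) hji hP hdet)

end FLTA.Patching
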